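import Mathlib
import Fermat.Agent.S48.W.G.Red.Defs
import Fermat.Agent.Lib.RR.OfModularC

/-!
# S48 wall (W), block G, seat G-23 BASE (helper10)

The genus-`0` base `B = modularFunctionFieldFullC k r` inside the residue field of the Gauss
valuation of `F = ℚ̄ F₀`, when `F₀ ⊇ modularFunctionFieldFull r`:
the generators `j̄(q^d)`, `d ∣ r`, are the residues of the integral series `j(q^d) ∈ F`.

* `coeffEmb_jq_mem_gaussSub` : `j ∈ F₀ ⟹ j ∈ O` (the Gauss ring);
* `gaussResFun_coeffEmb_jq`  : the residue of `j` is `j̄ = jqModC k`;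
* `fullC_le_resField`        : `modularFunctionFieldFullC k r ≤ resField A F₀`;
* `exists_baseEmb`           : the embedding `B →ₐ[k] resField A F₀`, `jC ↦ resElt j`.
-/

set_option autoImplicit false
set_option linter.unusedVariables false
set_option linter.unusedSectionVars false
set_option synthInstance.maxHeartbeats 400000

noncomputable section

namespace Fermat.Agent.S48WG23

open ModularCurve AlgebraicCurve IntermediateField Fermat.Agent.GaussInt Fermat.Agent.S48WG

local notation "Kb" => AlgebraicClosure ℚ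

variable {A : ValuationSubring Kb} {F₀ : IntermediateField ℚ (LaurentSeries ℚ)} {ℓ : ℕ}

/-- `j(q^d)` over `ℚ̄`, as the image of the integral series over `A`. -/
theorem base_emb_qExpand (d : ℕ) [NeZero d] :
    emb A (qExpand A d (jqModC A)) = coeffEmb Kb (qExpand ℚ d jq) := by
  show coeffMap A.subtype (qExpand A d (jqModC A)) = coeffMap (algebraMap ℚ Kb) (qExpand ℚ d jq)
  rw [coeffMap_qExpand, coeffMap_jqModC, coeffMap_qExpand, ← jqModC_rat, coeffMap_jqModC]

theorem base_emb_jq : emb A (jqModC A) = coeffEmb Kb jq := by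
  show coeffMap A.subtype (jqModC A) = coeffMap (algebraMap ℚ Kb) jq
  rw [coeffMap_jqModC, ← jqModC_rat, coeffMap_jqModC]

theorem base_red_qExpand (d : ℕ) [NeZero d] :
    red A (qExpand A d (jqModC A))
      = qExpand (IsLocalRing.ResidueField A) d (jqModC (IsLocalRing.ResidueField A)) := by
  show coeffMap (IsLocalRing.residue A) (qExpand A d (jqModC A)) = _
  rw [coeffMap_qExpand, coeffMap_jqModC]

theorem base_red_jq : red A (jqModC A) = jqModC (IsLocalRing.ResidueField A) := by
  show coeffMap (IsLocalRing.residue A) (jqModC A) = _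
  rw [coeffMap_jqModC]

/-- `j` lies in the Gauss ring. -/
theorem coeffEmb_jq_mem_gaussSub (hjq : jq ∈ F₀) :
    coeffEmb Kb jq ∈ gaussSub A (laurentBaseChange Kb F₀) := by
  rw [← base_emb_jq (A := A)]
  apply emb_mem_gaussSub
  rw [base_emb_jq]
  exact coeffEmb_mem_laurentBaseChange Kb hjq

/-- the residue of `j` is `j̄`. -/
theorem gaussResFun_coeffEmb_jq
    (hx : coeffEmb Kb jq ∈ gaussSub A (laurentBaseChange Kb F₀)) :
    gaussResFun A (laurentBaseChange Kb F₀) (coeffEmb Kb jq)
      = jqModC (IsLocalRing.ResidueField A) := by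
  have hmem : emb A (jqModC A) ∈ laurentBaseChange Kb F₀ := by
    rw [base_emb_jq]
    exact mem_of_mem_gaussSub hx
  rw [← base_emb_jq (A := A), gaussResFun_emb hmem, base_red_jq]

/-- `j̄(q^d)`, `d ∣ r`, is a residue. -/
theorem qExpand_jqModC_mem_resSet (r : ℕ) [NeZero r] (hr : modularFunctionFieldFull r ≤ F₀)
    {d : ℕ} [NeZero d] (hd : d ∣ r) :
    qExpand (IsLocalRing.ResidueField A) d (jqModC (IsLocalRing.ResidueField A))
      ∈ resSet A F₀ := by
  have hmem : emb A (qExpand A d (jqModC A)) ∈ laurentBaseChange Kb F₀ := by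
    rw [base_emb_qExpand]
    exact coeffEmb_mem_laurentBaseChange Kb (hr (jqd_mem_full r hd))
  refine ⟨emb A (qExpand A d (jqModC A)), emb_mem_gaussSub hmem, ?_⟩
  rw [gaussResFun_emb hmem, base_red_qExpand]

/-- the base field lies in the residue field. -/
theorem fullC_le_resField (r : ℕ) [NeZero r] (hr : modularFunctionFieldFull r ≤ F₀) :
    modularFunctionFieldFullC (IsLocalRing.ResidueField A) r ≤ resField A F₀ := by
  rw [modularFunctionFieldFullC, adjoin_le_iff]
  rintro x ⟨d, hne, hdvd, rfl⟩
  have := hne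
  exact subset_adjoin _ _ (qExpand_jqModC_mem_resSet r hr hdvd)

/-- **BASE**: the genus-`0` base inside the residue field. -/
theorem exists_baseEmb (hℓ : ℓ.Prime) (hA : A.LiesOverPrime ℓ) (r : ℕ) [NeZero r]
    (hr : modularFunctionFieldFull r ≤ F₀)
    (hx : coeffEmb Kb jq ∈ gaussSub A (laurentBaseChange Kb F₀)) :
    ∃ ι : ↥(modularFunctionFieldFullC (IsLocalRing.ResidueField A) r)
        →ₐ[IsLocalRing.ResidueField A] ↥(resField A F₀),
      ι (Fermat.Agent.RRMod.jC (IsLocalRing.ResidueField A) r) = resElt hx := by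
  refine ⟨IntermediateField.inclusion (fullC_le_resField r hr), ?_⟩
  apply Subtype.ext
  show jqModC (IsLocalRing.ResidueField A)
    = gaussResFun A (laurentBaseChange Kb F₀) (coeffEmb Kb jq)
  rw [gaussResFun_coeffEmb_jq hx]

end Fermat.Agent.S48WG23
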