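import Mathlib
import Fermat.Agent.S48.W.G.P23.Base

/-!
# S48 wall (W), block G, seat G-23 BASE, scaled form (helper10)

The base function of G-RED at level `M'` is `j(q^{M'})`, not `j(q)`.  So the genus-`0` base
`B = modularFunctionFieldFullC k r` is embedded in the residue field through `f(q) ↦ f(q^s)`
(`s = M' / r`):

* `exists_baseEmb_scaled` : `ι_s : B →ₐ[k] resField A F₀` with `ι_s f = f(q^s)` as series,
  as soon as `j(q^{s d}) ∈ F₀` for all `d ∣ r`;
* `gaussResFun_coeffEmb_qExpand` : the residue of `j(q^n)` is `j̄(q^n)`.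
-/

set_option autoImplicit false
set_option linter.unusedVariables false
set_option linter.unusedSectionVars false
set_option synthInstance.maxHeartbeats 400000

noncomputable section

namespace Fermat.Agent.S48WG23

open ModularCurve AlgebraicCurve IntermediateField Fermat.Agent.GaussInt Fermat.Agent.S48WG

local notation "Kb" => AlgebraicClosure ℚ

variable {A : ValuationSubring Kb} {F₀ : IntermediateField ℚ (LaurentSeries ℚ)}

/-- `j(q^n)` lies in the Gauss ring. -/
theorem coeffEmb_qExpand_jq_mem_gaussSub (n : ℕ) [NeZero n] (h : qExpand ℚ n jq ∈ F₀) :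
    coeffEmb Kb (qExpand ℚ n jq) ∈ gaussSub A (laurentBaseChange Kb F₀) := by
  rw [← base_emb_qExpand (A := A)]
  apply emb_mem_gaussSub
  rw [base_emb_qExpand]
  exact coeffEmb_mem_laurentBaseChange Kb h

/-- the residue of `j(q^n)` is `j̄(q^n)`. -/
theorem gaussResFun_coeffEmb_qExpand (n : ℕ) [NeZero n]
    (hx : coeffEmb Kb (qExpand ℚ n jq) ∈ gaussSub A (laurentBaseChange Kb F₀)) :
    gaussResFun A (laurentBaseChange Kb F₀) (coeffEmb Kb (qExpand ℚ n jq))
      = qExpand (IsLocalRing.ResidueField A) n (jqModC (IsLocalRing.ResidueField A)) := by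
  have hmem : emb A (qExpand A n (jqModC A)) ∈ laurentBaseChange Kb F₀ := by
    rw [base_emb_qExpand]
    exact mem_of_mem_gaussSub hx
  rw [← base_emb_qExpand (A := A), gaussResFun_emb hmem, base_red_qExpand]

/-- `j̄(q^n)` is a residue as soon as `j(q^n) ∈ F₀`. -/
theorem qExpand_jqModC_mem_resSet_of_mem (n : ℕ) [NeZero n] (h : qExpand ℚ n jq ∈ F₀) :
    qExpand (IsLocalRing.ResidueField A) n (jqModC (IsLocalRing.ResidueField A))
      ∈ resSet A F₀ :=
  ⟨_, coeffEmb_qExpand_jq_mem_gaussSub n h,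
    gaussResFun_coeffEmb_qExpand n (coeffEmb_qExpand_jq_mem_gaussSub n h)⟩

/-- the scaled base field lies in the residue field. -/
theorem map_fullC_le_resField (r s : ℕ) [NeZero r] [NeZero s]
    (hr : ∀ (d : ℕ) [NeZero d] [NeZero (s * d)], d ∣ r → qExpand ℚ (s * d) jq ∈ F₀) :
    (modularFunctionFieldFullC (IsLocalRing.ResidueField A) r).map
        (qExpandAlgHomC (IsLocalRing.ResidueField A) s) ≤ resField A F₀ := by
  rw [modularFunctionFieldFullC, IntermediateField.adjoin_map, adjoin_le_iff]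
  rintro x ⟨y, ⟨d, hne, hdvd, rfl⟩, rfl⟩
  have := hne
  have hsd : NeZero (s * d) := ⟨Nat.mul_ne_zero (NeZero.ne s) (NeZero.ne d)⟩
  rw [qExpandAlgHomC_apply, qExpand_qExpand]
  exact subset_adjoin _ _ (qExpand_jqModC_mem_resSet_of_mem (s * d) (hr d hdvd))

/-- **BASE, scaled**: `ι_s : B →ₐ[k] resField A F₀`, `f(q) ↦ f(q^s)`. -/
theorem exists_baseEmb_scaled (r s : ℕ) [NeZero r] [NeZero s]
    (hr : ∀ (d : ℕ) [NeZero d] [NeZero (s * d)], d ∣ r → qExpand ℚ (s * d) jq ∈ F₀) :
    ∃ ι : ↥(modularFunctionFieldFullC (IsLocalRing.ResidueField A) r)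
        →ₐ[IsLocalRing.ResidueField A] ↥(resField A F₀),
      ∀ f : ↥(modularFunctionFieldFullC (IsLocalRing.ResidueField A) r),
        ((ι f : ↥(resField A F₀)) : LaurentSeries (IsLocalRing.ResidueField A))
          = qExpand (IsLocalRing.ResidueField A) s
              (f : LaurentSeries (IsLocalRing.ResidueField A)) := by
  refine ⟨(IntermediateField.inclusion (map_fullC_le_resField r s hr)).comp
    ((modularFunctionFieldFullC (IsLocalRing.ResidueField A) r).equivMap
      (qExpandAlgHomC (IsLocalRing.ResidueField A) s)).toAlgHom, fun f => ?_⟩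
  rfl

/-- the image of `j̄(q^d)` (`d ∣ r`) under `ι_s` is the residue of `j(q^{s d})`. -/
theorem baseEmb_scaled_jqd (r s : ℕ) [NeZero r] [NeZero s]
    (ι : ↥(modularFunctionFieldFullC (IsLocalRing.ResidueField A) r)
        →ₐ[IsLocalRing.ResidueField A] ↥(resField A F₀))
    (hι : ∀ f : ↥(modularFunctionFieldFullC (IsLocalRing.ResidueField A) r),
        ((ι f : ↥(resField A F₀)) : LaurentSeries (IsLocalRing.ResidueField A))
          = qExpand (IsLocalRing.ResidueField A) s
              (f : LaurentSeries (IsLocalRing.ResidueField A)))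
    (d : ℕ) [NeZero d] [NeZero (s * d)] (hd : d ∣ r)
    (hx : coeffEmb Kb (qExpand ℚ (s * d) jq) ∈ gaussSub A (laurentBaseChange Kb F₀)) :
    ι ⟨qExpand (IsLocalRing.ResidueField A) d (jqModC (IsLocalRing.ResidueField A)),
        subset_adjoin _ _ (mem_divisorExpansionsC (IsLocalRing.ResidueField A) r hd)⟩
      = resElt hx := by
  apply Subtype.ext
  rw [hι]
  show qExpand (IsLocalRing.ResidueField A) s
      (qExpand (IsLocalRing.ResidueField A) d (jqModC (IsLocalRing.ResidueField A)))
    = gaussResFun A (laurentBaseChange Kb F₀) (coeffEmb Kb (qExpand ℚ (s * d) jq))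
  rw [gaussResFun_coeffEmb_qExpand (s * d) hx, qExpand_qExpand]

end Fermat.Agent.S48WG23
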