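import Mathlib
import Fermat.Agent.Lib.RR.Hurwitz.Fibres
import Fermat.Agent.Lib.GoodRed.Places
import Fermat.Agent.Lib.GenusEq.Props

/-!
# S48 wall (W), block G, seat G-23 CHAR0 (helper10)

Generic tame Riemann–Hurwitz in characteristic `0` for a covering of the `x`-line which is
unramified outside `{0, u, ∞}`, with all ramification indices `3` over `0` and `2` over `u`
("no elliptic points"):  `12 g + 6 C = 12 + n`, where `n = [F : K(x)]` and `C` is the number of
poles of `x`.  In the application `x = j`, `u = 1728`, `F = FOneBar M'` (`M' ≥ 4`), `C` = number of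
cusps.  A direct consequence of `RRHur.hurwitz_formula_fibres`.
-/

set_option autoImplicit false
set_option linter.style.haveILetI false
set_option linter.unusedSectionVars false

noncomputable section

open AlgebraicCurve IntermediateField

namespace Fermat.Agent.S48WG.P23

open Fermat.Agent.RR Fermat.Agent.RRHur

variable {K F : Type*} [Field K] [Field F] [Algebra K F]

/-- **CHAR0** (`ℤ`-form): tame Hurwitz over the `x`-line with branch values `0` (index `3`),
`u` (index `2`) and `∞`. -/
theorem hurwitz_char0_int [IsAlgClosed K] [CharZero K] (h : IsRRField K F) {x : F}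
    (hx : Transcendental K x) [FiniteDimensional K⟮x⟯ F] [Algebra.IsSeparable K⟮x⟯ F]
    (u : K) (hu : u ≠ 0)
    (hunr : ∀ c : K, c ≠ 0 → c ≠ u →
      Nat.card {v : Place K F // 0 < v.ord (x - algebraMap K F c)} = Module.finrank K⟮x⟯ F)
    (h0 : 3 * Nat.card {v : Place K F // 0 < v.ord (x - algebraMap K F 0)}
      = Module.finrank K⟮x⟯ F)
    (h2 : 2 * Nat.card {v : Place K F // 0 < v.ord (x - algebraMap K F u)}
      = Module.finrank K⟮x⟯ F) :
    12 * (genusFF K F : ℤ) + 6 * (Nat.card {v : Place K F // v.ord x < 0} : ℤ)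
      = 12 + (Module.finrank K⟮x⟯ F : ℤ) := by
  classical
  have hS : ∀ c : K, c ∉ ({0, u} : Finset K) →
      Nat.card {v : Place K F // 0 < v.ord (x - algebraMap K F c)} = Module.finrank K⟮x⟯ F := by
    intro c hc
    rw [Finset.mem_insert, Finset.mem_singleton, not_or] at hc
    exact hunr c hc.1 hc.2
  have hf := hurwitz_formula_fibres h hx ({0, u} : Finset K) hS
  rw [Finset.sum_pair hu.symm] at hf
  have h0' : (3 : ℤ) * (Nat.card {v : Place K F // 0 < v.ord (x - algebraMap K F 0)} : ℤ)
      = (Module.finrank K⟮x⟯ F : ℤ) := by exact_mod_cast h0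
  have h2' : (2 : ℤ) * (Nat.card {v : Place K F // 0 < v.ord (x - algebraMap K F u)} : ℤ)
      = (Module.finrank K⟮x⟯ F : ℤ) := by exact_mod_cast h2
  linarith

/-- **CHAR0**: `12 g + 6 C = 12 + n`. -/
theorem hurwitz_char0 [IsAlgClosed K] [CharZero K] (h : IsRRField K F) {x : F}
    (hx : Transcendental K x) [FiniteDimensional K⟮x⟯ F]
    (u : K) (hu : u ≠ 0)
    (hunr : ∀ c : K, c ≠ 0 → c ≠ u →
      Nat.card {v : Place K F // 0 < v.ord (x - algebraMap K F c)} = Module.finrank K⟮x⟯ F)
    (h0 : 3 * Nat.card {v : Place K F // 0 < v.ord x} = Module.finrank K⟮x⟯ F)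
    (h2 : 2 * Nat.card {v : Place K F // 0 < v.ord (x - algebraMap K F u)}
      = Module.finrank K⟮x⟯ F) :
    12 * genusFF K F + 6 * Nat.card {v : Place K F // v.ord x < 0}
      = 12 + Module.finrank K⟮x⟯ F := by
  haveI : Algebra.IsSeparable K⟮x⟯ F := inferInstance
  have h0' : 3 * Nat.card {v : Place K F // 0 < v.ord (x - algebraMap K F 0)}
      = Module.finrank K⟮x⟯ F := by
    simpa using h0
  have := hurwitz_char0_int h hx u hu hunr h0' h2
  exact_mod_cast this

end Fermat.Agent.S48WG.P23

namespace Fermat.Agent.S48WG23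

open Fermat.Agent.RR Fermat.Agent.GoodRed Fermat.Agent.GenusEq

/-- **CHAR0** in the form of the G-23 blueprint (helper94): `fibreCard` / `poleCount`. -/
theorem twelve_genusFF_of_fibres {K F : Type} [Field K] [Field F] [Algebra K F] [IsAlgClosed K]
    [CharZero K] (h : IsRRField K F) {x : F} (hx : Transcendental K x)
    [FiniteDimensional K⟮x⟯ F] (u : K) (hu0 : u ≠ 0)
    (hunr : ∀ c : K, c ≠ 0 → c ≠ u → fibreCard K x c = Module.finrank K⟮x⟯ F)
    (h0 : 3 * fibreCard K x 0 = Module.finrank K⟮x⟯ F)
    (hu : 2 * fibreCard K x u = Module.finrank K⟮x⟯ F) :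
    12 * genusFF K F + 6 * poleCount K F x = 12 + Module.finrank K⟮x⟯ F := by
  haveI : Algebra.IsSeparable K⟮x⟯ F := inferInstance
  have hint := Fermat.Agent.S48WG.P23.hurwitz_char0_int h hx u hu0
    (fun c hc0 hcu => by rw [← fibreCard_eq_card_zeros hx c]; exact hunr c hc0 hcu)
    (by rw [← fibreCard_eq_card_zeros hx 0]; exact h0)
    (by rw [← fibreCard_eq_card_zeros hx u]; exact hu)
  unfold poleCount
  exact_mod_cast hint

end Fermat.Agent.S48WG23
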