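/-
S48 wall (W), block G, part G-23 (sub-architect helper94), seat CUSP (helper20):
the number of poles of the base function does not change under reduction.

`F₀ ⊆ ℚ((q))` generated by integral series, `A` a valuation ring of `ℚ̄` over `ℓ`, `F = ℚ̄ F₀`,
`Fk = resField A F₀`, `x` a base function with the fundamental inequality, unramified outside
`{0, u, ∞}` with `u ∈ A`, `u ≠ 0`:  `poleCount k Fk x̄ = poleCount ℚ̄ F x`
(`GenusEq.poleCount_xbar_eq` on the reduction model `S48WG.redModel` of G-MODEL).
-/
import Mathlib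
import Fermat.Agent.S48.W.G.Red.Defs
import Fermat.Agent.S48.W.G.Red.Model
import Fermat.Agent.Lib.GenusEq.CuspModL
import Fermat.Agent.Lib.FrobTrace.Residue

set_option autoImplicit false
set_option linter.unusedSectionVars false
set_option linter.style.haveILetI false
set_option synthInstance.maxHeartbeats 400000

noncomputable section

namespace Fermat.Agent.S48WG23

open ModularCurve AlgebraicCurve IntermediateField Fermat.Agent.GaussInt Fermat.Agent.RR
  Fermat.Agent.GoodRed Fermat.Agent.GenusEq Fermat.Agent.S48WG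

local notation "Kb" => AlgebraicClosure ℚ

variable {A : ValuationSubring Kb} {F₀ : IntermediateField ℚ (LaurentSeries ℚ)} {ℓ : ℕ}

/-- the degree data of the reduction model of G-MODEL, from a base function and the fundamental
inequality. -/
theorem degData_redModel (hℓ : ℓ.Prime) (hA : A.LiesOverPrime ℓ) (hint : IsIntGen A F₀)
    (hsurj : ResSurj A F₀)
    {x : LaurentSeries Kb} (hx : x ∈ gaussSub A (laurentBaseChange Kb F₀))
    (hbase : IsBaseFun A F₀ hx)
    (hfund : Module.finrank (IsLocalRing.ResidueField A)⟮resElt hx⟯ ↥(resField A F₀) ≤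
      Module.finrank Kb⟮barElt hx⟯ ↥(laurentBaseChange Kb F₀)) :
    DegData (redModel (redHyp hℓ hA hint) hsurj hx hbase.2.2.1)
      (Module.finrank Kb⟮barElt hx⟯ ↥(laurentBaseChange Kb F₀)) := by
  obtain ⟨-, hfd, hxt, hfdk, hsep, hle⟩ := hbase
  exact
    { deg := rfl
      degk := le_antisymm hfund hle
      sepk := hsep
      pos := Module.finrank_pos }

/-- **(CUSP)** the number of poles of the base function does not change under reduction. -/
theorem poleCount_resElt_eq (hℓ : ℓ.Prime) (hA : A.LiesOverPrime ℓ) (hint : IsIntGen A F₀)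
    (hsurj : ResSurj A F₀)
    {x : LaurentSeries Kb} (hx : x ∈ gaussSub A (laurentBaseChange Kb F₀))
    (hbase : IsBaseFun A F₀ hx)
    (hfund : Module.finrank (IsLocalRing.ResidueField A)⟮resElt hx⟯ ↥(resField A F₀) ≤
      Module.finrank Kb⟮barElt hx⟯ ↥(laurentBaseChange Kb F₀))
    (u : Kb) (hu : u ∈ A) (hu0 : u ≠ 0)
    (hunram : ∀ c : Kb, c ≠ 0 → c ≠ u → fibreCard Kb (barElt hx) c =
      Module.finrank Kb⟮barElt hx⟯ ↥(laurentBaseChange Kb F₀)) :
    poleCount (IsLocalRing.ResidueField A) ↥(resField A F₀) (resElt hx) =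
      poleCount Kb ↥(laurentBaseChange Kb F₀) (barElt hx) := by
  haveI : IsAlgClosed (IsLocalRing.ResidueField A) :=
    Fermat.Agent.FrobTrace.isAlgClosed_residueField A
  exact poleCount_xbar_eq (redModel (redHyp hℓ hA hint) hsurj hx hbase.2.2.1)
    (Module.finrank Kb⟮barElt hx⟯ ↥(laurentBaseChange Kb F₀))
    (degData_redModel hℓ hA hint hsurj hx hbase hfund) u hu hu0 hunram

end Fermat.Agent.S48WG23
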