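/-
S48 wall (W), block G, part G-23 (sub-architect helper94), seat DEG, group part (helper20).
Mathlib only.

For `p ∈ {2, 3}` and a prime `l ≥ 5`:
* `degGrp_not_dvd_card_SL`       : `l ∤ #SL₂(ℤ/p^k)`  (no counting: Cauchy + exponent);
* `degGrp_not_dvd_relIndex_Gamma`: `l ∤ [U : U ∩ Γ(p^k)]` for every subgroup `U ≤ SL₂(ℤ)`;
* `degGrp_not_dvd_relIndex_of_sandwich`: if `U' ≤ U` with `l ∤ [U : U']` and
  `U' ∩ Γ(p^k) ≤ H' ≤ H ≤ U`, then `l ∤ [H : H']`.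

Application (DEG): `H = ` stabiliser of `FOneBar M`, `H' = ` stabiliser of `FOneBar (r M)`,
`U = ±Γ₁(M)`, `U' = Γ₁(M)`, `p^k = r · (p-part of M)`: `[FOneBar (r M) : FOneBar M] = [H : H']` is
prime to `l`.
-/
import Mathlib

set_option autoImplicit false
set_option linter.style.haveILetI false

noncomputable section

namespace Fermat.Agent.S48WG23

open scoped MatrixGroups
open Matrix

/-! ### `(1 + p Y)^(p^j) = 1 + p^(j+1) Y'` -/

section Ring

variable {R : Type*} [Ring R]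

theorem degGrp_sum_smul (n : ℕ) (s : Finset ℕ) (f : ℕ → R)
    (h : ∀ m ∈ s, ∃ Z : R, f m = n • Z) : ∃ Z : R, ∑ m ∈ s, f m = n • Z := by
  classical
  refine Finset.sum_induction f (fun x => ∃ Z : R, x = n • Z) ?_ ⟨0, by simp⟩ h
  rintro a b ⟨Za, rfl⟩ ⟨Zb, rfl⟩
  exact ⟨Za + Zb, by rw [smul_add]⟩

theorem degGrp_dvd_term (p : ℕ) (hp : p.Prime) (i : ℕ) (hi : 1 ≤ i) (m : ℕ) (hm : m < p) :
    p ^ (i + 1) ∣ (p ^ i) ^ (m + 1) * p.choose (m + 1) := by
  rcases Nat.lt_or_ge (m + 1) p with h | h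
  · have h1 : p ∣ p.choose (m + 1) := hp.dvd_choose_self (Nat.succ_ne_zero m) h
    have h2 : p ^ i ∣ (p ^ i) ^ (m + 1) := dvd_pow_self _ (Nat.succ_ne_zero m)
    rw [pow_succ]
    exact mul_dvd_mul h2 h1
  · have hmp : m + 1 = p := by omega
    rw [hmp, Nat.choose_self, mul_one, ← pow_mul]
    apply pow_dvd_pow
    have h2 : 2 ≤ p := hp.two_le
    nlinarith

theorem degGrp_one_add_pow (p : ℕ) (hp : p.Prime) (i : ℕ) (hi : 1 ≤ i) (Y : R) :
    ∃ Y' : R, (1 + (p ^ i) • Y) ^ p = 1 + (p ^ (i + 1)) • Y' := by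
  have hcomm : Commute ((p ^ i) • Y) (1 : R) := Commute.one_right _
  rw [add_comm, hcomm.add_pow, Finset.sum_range_succ']
  simp only [pow_zero, one_pow, mul_one, Nat.choose_zero_right, Nat.cast_one]
  obtain ⟨Z, hZ⟩ := degGrp_sum_smul (p ^ (i + 1)) (Finset.range p)
    (fun m => ((p ^ i) • Y) ^ (m + 1) * ((p.choose (m + 1) : ℕ) : R)) (by
      intro m hm
      rw [Finset.mem_range] at hm
      obtain ⟨d, hd⟩ := degGrp_dvd_term p hp i hi m hm
      refine ⟨d • Y ^ (m + 1), ?_⟩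
      rw [smul_pow, ← nsmul_eq_mul', smul_smul, smul_smul, mul_comm (p.choose (m + 1)), hd])
  exact ⟨Z, by rw [hZ, add_comm]⟩

theorem degGrp_one_add_pow_pow (p : ℕ) (hp : p.Prime) (Y : R) (j : ℕ) :
    ∃ Y' : R, (1 + p • Y) ^ (p ^ j) = 1 + (p ^ (j + 1)) • Y' := by
  induction j with
  | zero => exact ⟨Y, by simp⟩
  | succ j ih =>
    obtain ⟨Y₁, h₁⟩ := ih
    obtain ⟨Y₂, h₂⟩ := degGrp_one_add_pow p hp (j + 1) (Nat.succ_le_succ (Nat.zero_le j)) Y₁
    exact ⟨Y₂, by rw [pow_succ, pow_mul, h₁, h₂]⟩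

end Ring

/-! ### the kernel of `ℤ/p^k → ℤ/p` -/

theorem degGrp_castHom_eq_zero (p k : ℕ) (hp : p.Prime) (hk : k ≠ 0) (x : ZMod (p ^ k))
    (hx : ZMod.castHom (dvd_pow_self p hk) (ZMod p) x = 0) :
    ∃ y : ZMod (p ^ k), x = (p : ZMod (p ^ k)) * y := by
  haveI : NeZero (p ^ k) := ⟨pow_ne_zero k hp.ne_zero⟩
  have h1 : ((x.val : ℕ) : ZMod (p ^ k)) = x := ZMod.natCast_zmod_val x
  rw [← h1, map_natCast, ZMod.natCast_eq_zero_iff] at hx
  obtain ⟨t, ht⟩ := hx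
  refine ⟨(t : ZMod (p ^ k)), ?_⟩
  rw [← h1, ht, Nat.cast_mul]

/-! ### the exponent of `SL₂(ℤ/p^k)` -/

section Exponent

variable (p k : ℕ)

/-- every element of `SL₂(ℤ/p^k)` is killed by `#SL₂(𝔽_p) · p^(k-1)`. -/
theorem degGrp_pow_eq_one (hp : p.Prime) (hk : k ≠ 0) (g : SL(2, ZMod (p ^ k))) :
    g ^ (Nat.card (SL(2, ZMod p)) * p ^ (k - 1)) = 1 := by
  haveI : NeZero (p ^ k) := ⟨pow_ne_zero k hp.ne_zero⟩
  set c := Nat.card (SL(2, ZMod p)) with hc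
  set ψ : SL(2, ZMod (p ^ k)) →* SL(2, ZMod p) :=
    Matrix.SpecialLinearGroup.map (ZMod.castHom (dvd_pow_self p hk) (ZMod p)) with hψ
  have h1 : ψ (g ^ c) = 1 := by
    rw [map_pow]
    exact pow_card_eq_one'
  -- the entries of `g ^ c - 1` are multiples of `p`
  have h2 : ∀ i j : Fin 2, ∃ y : ZMod (p ^ k),
      ((g ^ c : SL(2, ZMod (p ^ k))) : Matrix (Fin 2) (Fin 2) (ZMod (p ^ k))) i j -
        (1 : Matrix (Fin 2) (Fin 2) (ZMod (p ^ k))) i j = (p : ZMod (p ^ k)) * y := by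
    intro i j
    apply degGrp_castHom_eq_zero p k hp hk
    have h3 := congrArg (fun γ : SL(2, ZMod p) =>
      (γ : Matrix (Fin 2) (Fin 2) (ZMod p)) i j) h1
    simp only [hψ, Matrix.SpecialLinearGroup.coe_one] at h3
    rw [map_sub]
    have h4 : ZMod.castHom (dvd_pow_self p hk) (ZMod p)
        ((1 : Matrix (Fin 2) (Fin 2) (ZMod (p ^ k))) i j) =
        (1 : Matrix (Fin 2) (Fin 2) (ZMod p)) i j := by
      by_cases hij : i = j
      · subst hij
        rw [Matrix.one_apply_eq, Matrix.one_apply_eq, map_one]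
      · rw [Matrix.one_apply_ne hij, Matrix.one_apply_ne hij, map_zero]
    rw [h4, sub_eq_zero]
    exact h3
  choose Y hY using h2
  have h5 : ((g ^ c : SL(2, ZMod (p ^ k))) : Matrix (Fin 2) (Fin 2) (ZMod (p ^ k))) =
      1 + p • (Matrix.of Y) := by
    ext i j
    have := hY i j
    rw [sub_eq_iff_eq_add] at this
    rw [this, Matrix.add_apply, Matrix.smul_apply, Matrix.of_apply, nsmul_eq_mul, add_comm]
  obtain ⟨Y', hY'⟩ := degGrp_one_add_pow_pow p hp (Matrix.of Y) (k - 1)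
  have hk1 : k - 1 + 1 = k := Nat.sub_add_cancel (Nat.pos_of_ne_zero hk)
  have h6 : (p ^ k) • Y' = (0 : Matrix (Fin 2) (Fin 2) (ZMod (p ^ k))) := by
    ext i j
    rw [Matrix.smul_apply, nsmul_eq_mul, ZMod.natCast_self, zero_mul, Matrix.zero_apply]
  rw [pow_mul]
  apply Subtype.ext
  rw [Matrix.SpecialLinearGroup.coe_pow, h5, hY', hk1, h6, add_zero,
    Matrix.SpecialLinearGroup.coe_one]

end Exponent

/-! ### primes `≥ 5` do not divide `#SL₂(ℤ/p^k)`, `p = 2, 3` -/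

theorem degGrp_not_dvd_card_SL_prime (p l : ℕ) (hp : p = 2 ∨ p = 3) (hl : l.Prime)
    (h5 : 5 ≤ l) : ¬ l ∣ Nat.card (SL(2, ZMod p)) := by
  intro hdvd
  have hpp : p.Prime := by rcases hp with rfl | rfl <;> norm_num
  haveI : Fact p.Prime := ⟨hpp⟩
  have h1 : Nat.card (SL(2, ZMod p)) ∣ Nat.card (GL (Fin 2) (ZMod p)) :=
    Subgroup.card_dvd_of_injective Matrix.SpecialLinearGroup.toGL
      Matrix.SpecialLinearGroup.toGL_injective
  have h2 := Matrix.card_GL_field (𝔽 := ZMod p) 2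
  rw [ZMod.card, Fin.prod_univ_two] at h2
  have h3 : l ∣ (p ^ 2 - p ^ ((0 : Fin 2) : ℕ)) * (p ^ 2 - p ^ ((1 : Fin 2) : ℕ)) := by
    rw [← h2]
    exact hdvd.trans h1
  have h2' : ¬ l ∣ 2 := fun h => by
    have := Nat.le_of_dvd (by norm_num) h
    omega
  have h3' : ¬ l ∣ 3 := fun h => by
    have := Nat.le_of_dvd (by norm_num) h
    omega
  rcases hp with rfl | rfl
  · -- `(4 - 1) * (4 - 2) = 6 = 3 * 2`
    have h4 : l ∣ 3 * 2 := by simpa using h3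
    rcases hl.dvd_mul.mp h4 with h | h
    · exact h3' h
    · exact h2' h
  · -- `(9 - 1) * (9 - 3) = 48 = 2 ^ 4 * 3`
    have h4 : l ∣ 2 ^ 4 * 3 := by simpa using h3
    rcases hl.dvd_mul.mp h4 with h | h
    · exact h2' (hl.dvd_of_dvd_pow h)
    · exact h3' h

theorem degGrp_not_dvd_card_SL (p k l : ℕ) (hp : p = 2 ∨ p = 3) (hl : l.Prime) (h5 : 5 ≤ l) :
    ¬ l ∣ Nat.card (SL(2, ZMod (p ^ k))) := by
  intro hdvd
  have hpp : p.Prime := by rcases hp with rfl | rfl <;> norm_num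
  haveI : Fact l.Prime := ⟨hl⟩
  rcases Nat.eq_zero_or_pos k with rfl | hk
  · -- `ℤ/1`: the trivial group
    haveI : Subsingleton (ZMod (p ^ 0)) := by
      rw [pow_zero]
      infer_instance
    haveI : Subsingleton (SL(2, ZMod (p ^ 0))) :=
      ⟨fun a b => Subtype.ext (Subsingleton.elim _ _)⟩
    rw [Nat.card_unique] at hdvd
    exact hl.one_lt.ne' (Nat.dvd_one.mp hdvd)
  · haveI : NeZero (p ^ k) := ⟨pow_ne_zero k hpp.ne_zero⟩
    haveI : Finite (SL(2, ZMod (p ^ k))) := Subtype.finite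
    obtain ⟨g, hg⟩ := exists_prime_orderOf_dvd_card' (G := SL(2, ZMod (p ^ k))) l hdvd
    have h1 : orderOf g ∣ Nat.card (SL(2, ZMod p)) * p ^ (k - 1) :=
      orderOf_dvd_of_pow_eq_one (degGrp_pow_eq_one p k hpp hk.ne' g)
    rw [hg] at h1
    rcases hl.dvd_mul.mp h1 with h | h
    · exact degGrp_not_dvd_card_SL_prime p l hp hl h5 h
    · have h2 : l ∣ p := hl.dvd_of_dvd_pow h
      have h3 : l ≤ p := Nat.le_of_dvd hpp.pos h2
      rcases hp with rfl | rfl <;> omega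

/-! ### indices -/

theorem degGrp_not_dvd_relIndex_Gamma (p k l : ℕ) (hp : p = 2 ∨ p = 3) (hl : l.Prime)
    (h5 : 5 ≤ l) (U : Subgroup SL(2, ℤ)) :
    ¬ l ∣ (CongruenceSubgroup.Gamma (p ^ k)).relIndex U := by
  intro hdvd
  have h1 : (CongruenceSubgroup.Gamma (p ^ k)).relIndex U =
      Nat.card (U.map (Matrix.SpecialLinearGroup.map (Int.castRingHom (ZMod (p ^ k))))) :=
    Subgroup.relIndex_ker U (Matrix.SpecialLinearGroup.map (Int.castRingHom (ZMod (p ^ k))))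
  rw [h1] at hdvd
  exact degGrp_not_dvd_card_SL p k l hp hl h5
    (hdvd.trans (Subgroup.card_subgroup_dvd_card _))

/-- **DEG, group part**: `U' ∩ Γ(p^k) ≤ H' ≤ H ≤ U`, `U' ≤ U`, `l ∤ [U : U']` `⟹` `l ∤ [H : H']`. -/
theorem degGrp_not_dvd_relIndex_of_sandwich (p k l : ℕ) (hp : p = 2 ∨ p = 3) (hl : l.Prime)
    (h5 : 5 ≤ l) (U' U H H' : Subgroup SL(2, ℤ)) (hU'U : U' ≤ U)
    (hl2 : ¬ l ∣ U'.relIndex U)
    (hW : U' ⊓ CongruenceSubgroup.Gamma (p ^ k) ≤ H') (hH'H : H' ≤ H) (hHU : H ≤ U) :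
    ¬ l ∣ H'.relIndex H := by
  intro hdvd
  set W := U' ⊓ CongruenceSubgroup.Gamma (p ^ k) with hWdef
  have hWU' : W ≤ U' := inf_le_left
  -- `[U : W] = [U' : W] [U : U']`
  have h1 : W.relIndex U' * U'.relIndex U = W.relIndex U :=
    Subgroup.relIndex_mul_relIndex W U' U hWU' hU'U
  have h2 : ¬ l ∣ W.relIndex U' := by
    rw [hWdef, Subgroup.inf_relIndex_left]
    exact degGrp_not_dvd_relIndex_Gamma p k l hp hl h5 U'
  have h3 : ¬ l ∣ W.relIndex U := by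
    rw [← h1]
    intro h
    rcases hl.dvd_mul.mp h with h | h
    · exact h2 h
    · exact hl2 h
  -- `[U : W] = [H' : W] [H : H'] [U : H]`
  have h4 : W.relIndex H' * H'.relIndex H = W.relIndex H :=
    Subgroup.relIndex_mul_relIndex W H' H hW hH'H
  have h5' : W.relIndex H * H.relIndex U = W.relIndex U :=
    Subgroup.relIndex_mul_relIndex W H U (hW.trans hH'H) hHU
  apply h3
  rw [← h5', ← h4]
  exact Dvd.dvd.mul_right (Dvd.dvd.mul_left hdvd _) _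

end Fermat.Agent.S48WG23
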