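/-
S48 wall (W), block G, part G-23 (good reduction of `X₁` at `p = 2, 3`), seat GE (helper94).

GENUS EQUALITY at an auxiliary level, generic in the field of `q`-series `F₀`:
`F = ℚ̄ F₀`, `Fk = resField A F₀`, base function `x` (in the application `x = j`), and a base
`B = modularFunctionFieldFullC k r ⊆ Fk` of genus `0` (`r = 4` or `9`, `ℓ ∤ r`).

  char `0` :  `12 g + 6 C = 12 + n`                       (seat CHAR0: tame Hurwitz, no elliptic points)
  cusps    :  `C_k = C`                                    (seat CUSP: discriminant chain at `1/x`)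
  char `ℓ` :  `n' c_r - C_k ≤ 2 g_k - 2 + 2 n'`, `n = ψ(r) n'`   (`GenusEq.hurwitz_core` over `B`)
  `ψ(r) = 6 (c_r - 2)`  ⟹  `g ≤ g_k`;  Deuring: `g_k ≤ g`.

Port of `Lib/GenusEq/Assembly.lean` (helper93's method: no Hauptmodul, no tameness in
characteristic `ℓ`).
-/
import Mathlib
import Fermat.Agent.S48.W.G.Red.Defs
import Fermat.Agent.S48.W.G.Red.Model
import Fermat.Agent.S48.W.G.Red.Fund
import Fermat.Agent.Lib.GenusEq.Main

set_option autoImplicit false
set_option linter.style.haveILetI false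
set_option linter.unusedSectionVars false
set_option synthInstance.maxHeartbeats 400000
set_option maxHeartbeats 2000000

noncomputable section

namespace Fermat.Agent.S48WG23

open ModularCurve AlgebraicCurve IntermediateField Fermat.Agent.GaussInt Fermat.Agent.RR
  Fermat.Agent.RRMod Fermat.Agent.GoodRed Fermat.Agent.GenusEq Fermat.Agent.S48WG

local notation "Kb" => AlgebraicClosure ℚ

variable {A : ValuationSubring Kb} {F₀ : IntermediateField ℚ (LaurentSeries ℚ)} {ℓ : ℕ}

/-- **genus lower bound at an auxiliary level**: `g(F) ≤ g(Fk)`. -/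
theorem genusFF_ge_of_aux (hℓ : ℓ.Prime) (hA : A.LiesOverPrime ℓ)
    (hFk : IsRRField (IsLocalRing.ResidueField A) ↥(resField A F₀))
    {x : LaurentSeries Kb} (hx : x ∈ gaussSub A (laurentBaseChange Kb F₀))
    (hbase : IsBaseFun A F₀ hx)
    (hfund : Module.finrank (IsLocalRing.ResidueField A)⟮resElt hx⟯ ↥(resField A F₀) ≤
      Module.finrank Kb⟮barElt hx⟯ ↥(laurentBaseChange Kb F₀))
    (hchar0 : 12 * genusFF Kb ↥(laurentBaseChange Kb F₀) +
        6 * poleCount Kb ↥(laurentBaseChange Kb F₀) (barElt hx) =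
      12 + Module.finrank Kb⟮barElt hx⟯ ↥(laurentBaseChange Kb F₀))
    (hcusp : poleCount (IsLocalRing.ResidueField A) ↥(resField A F₀) (resElt hx) =
      poleCount Kb ↥(laurentBaseChange Kb F₀) (barElt hx))
    (r : ℕ) [NeZero r] (hr : r = 4 ∨ r = 9) (hℓr : ¬ ℓ ∣ r)
    (ι : ↥(modularFunctionFieldFullC (IsLocalRing.ResidueField A) r) →ₐ[IsLocalRing.ResidueField A]
      ↥(resField A F₀))
    (hι : ι (jC (IsLocalRing.ResidueField A) r) = resElt hx) :
    genusFF Kb ↥(laurentBaseChange Kb F₀) ≤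
      genusFF (IsLocalRing.ResidueField A) ↥(resField A F₀) := by
  haveI : IsAlgClosed (IsLocalRing.ResidueField A) :=
    Fermat.Agent.FrobTrace.isAlgClosed_residueField A
  set k := IsLocalRing.ResidueField A with hk
  obtain ⟨-, -, -, hfdk, hsep, hle⟩ := hbase
  have hn : Module.finrank k⟮resElt hx⟯ ↥(resField A F₀) =
      Module.finrank Kb⟮barElt hx⟯ ↥(laurentBaseChange Kb F₀) := le_antisymm hfund hle
  have hB := isRRField_fullC' k r
  have hgB : genusFF k ↥(modularFunctionFieldFullC k r) = 0 := by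
    have h1 := genusLe r ℓ hℓ hℓr A hA
    rw [genusFF_bar_base r hr] at h1
    exact Nat.le_zero.mp h1
  haveI : FiniteDimensional k⟮ι (jC k r)⟯ ↥(resField A F₀) := by
    rw [hι]; exact hfdk
  haveI : Algebra.IsSeparable k⟮ι (jC k r)⟯ ↥(resField A F₀) := by
    rw [hι]; exact hsep
  obtain ⟨n', hdeg, hineq⟩ := hurwitz_core rationalOfGenusZero poleCountFibres hB hFk hgB ι
    (jC k r) (transcendental_jC k r)
  rw [hι] at hdeg hineq
  rw [degreeModL r ℓ hℓ hℓr A hA, hn] at hdeg
  rw [cuspCountModL r ℓ hℓ hℓr A hA, hcusp] at hineq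
  have hdeg' : (dedekindPsi r : ℤ) * (n' : ℤ) =
      (Module.finrank Kb⟮barElt hx⟯ ↥(laurentBaseChange Kb F₀) : ℤ) := by exact_mod_cast hdeg
  have hchar0' : (12 : ℤ) * (genusFF Kb ↥(laurentBaseChange Kb F₀) : ℤ) +
      6 * (poleCount Kb ↥(laurentBaseChange Kb F₀) (barElt hx) : ℤ) =
      12 + (Module.finrank Kb⟮barElt hx⟯ ↥(laurentBaseChange Kb F₀) : ℤ) := by
    exact_mod_cast hchar0
  have goal : (genusFF Kb ↥(laurentBaseChange Kb F₀) : ℤ) ≤
      (genusFF k ↥(resField A F₀) : ℤ) := by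
    rcases hr with rfl | rfl
    · rw [cuspCount_four] at hineq
      rw [dedekindPsi_four] at hdeg'
      push_cast at hineq hdeg'
      linarith
    · rw [cuspCount_nine] at hineq
      rw [dedekindPsi_nine] at hdeg'
      push_cast at hineq hdeg'
      linarith
  exact_mod_cast goal

/-- **genus equality at an auxiliary level.** -/
theorem genusFF_eq_of_aux (hℓ : ℓ.Prime) (hA : A.LiesOverPrime ℓ) (hint : IsIntGen A F₀)
    (hsurj : ResSurj A F₀)
    (hF : IsRRField Kb ↥(laurentBaseChange Kb F₀))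
    (hFk : IsRRField (IsLocalRing.ResidueField A) ↥(resField A F₀))
    {x : LaurentSeries Kb} (hx : x ∈ gaussSub A (laurentBaseChange Kb F₀))
    (hbase : IsBaseFun A F₀ hx)
    (hfund : Module.finrank (IsLocalRing.ResidueField A)⟮resElt hx⟯ ↥(resField A F₀) ≤
      Module.finrank Kb⟮barElt hx⟯ ↥(laurentBaseChange Kb F₀))
    (hchar0 : 12 * genusFF Kb ↥(laurentBaseChange Kb F₀) +
        6 * poleCount Kb ↥(laurentBaseChange Kb F₀) (barElt hx) =
      12 + Module.finrank Kb⟮barElt hx⟯ ↥(laurentBaseChange Kb F₀))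
    (hcusp : poleCount (IsLocalRing.ResidueField A) ↥(resField A F₀) (resElt hx) =
      poleCount Kb ↥(laurentBaseChange Kb F₀) (barElt hx))
    (r : ℕ) [NeZero r] (hr : r = 4 ∨ r = 9) (hℓr : ¬ ℓ ∣ r)
    (ι : ↥(modularFunctionFieldFullC (IsLocalRing.ResidueField A) r) →ₐ[IsLocalRing.ResidueField A]
      ↥(resField A F₀))
    (hι : ι (jC (IsLocalRing.ResidueField A) r) = resElt hx) :
    genusFF Kb ↥(laurentBaseChange Kb F₀) =
      genusFF (IsLocalRing.ResidueField A) ↥(resField A F₀) := by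
  haveI : IsAlgClosed (IsLocalRing.ResidueField A) :=
    Fermat.Agent.FrobTrace.isAlgClosed_residueField A
  haveI : Infinite (IsLocalRing.ResidueField A) := IsAlgClosed.instInfinite
  have h : GaussHyp A F₀ ℓ := ⟨hℓ, hA, hint⟩
  exact le_antisymm
    (genusFF_ge_of_aux hℓ hA hFk hx hbase hfund hchar0 hcusp r hr hℓr ι hι)
    (Fermat.Agent.Deuring.genusFF_le (redValSetup h hsurj hF hFk)
      (hasLattice_redValSetup h hsurj hF hFk))

/-- **the good reduction input at an auxiliary level** (`RedInput` of G-RED). -/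
theorem redInput_of_aux (hℓ : ℓ.Prime) (hA : A.LiesOverPrime ℓ) (hint : IsIntGen A F₀)
    (hsurj : ResSurj A F₀)
    (hF : IsRRField Kb ↥(laurentBaseChange Kb F₀))
    (hFk : IsRRField (IsLocalRing.ResidueField A) ↥(resField A F₀))
    {x : LaurentSeries Kb} (hx : x ∈ gaussSub A (laurentBaseChange Kb F₀))
    (hbase : IsBaseFun A F₀ hx)
    (hfund : Module.finrank (IsLocalRing.ResidueField A)⟮resElt hx⟯ ↥(resField A F₀) ≤
      Module.finrank Kb⟮barElt hx⟯ ↥(laurentBaseChange Kb F₀))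
    (hchar0 : 12 * genusFF Kb ↥(laurentBaseChange Kb F₀) +
        6 * poleCount Kb ↥(laurentBaseChange Kb F₀) (barElt hx) =
      12 + Module.finrank Kb⟮barElt hx⟯ ↥(laurentBaseChange Kb F₀))
    (hcusp : poleCount (IsLocalRing.ResidueField A) ↥(resField A F₀) (resElt hx) =
      poleCount Kb ↥(laurentBaseChange Kb F₀) (barElt hx))
    (r : ℕ) [NeZero r] (hr : r = 4 ∨ r = 9) (hℓr : ¬ ℓ ∣ r)
    (ι : ↥(modularFunctionFieldFullC (IsLocalRing.ResidueField A) r) →ₐ[IsLocalRing.ResidueField A]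
      ↥(resField A F₀))
    (hι : ι (jC (IsLocalRing.ResidueField A) r) = resElt hx) :
    RedInput A F₀ :=
  ⟨hF, hFk, hsurj,
    genusFF_eq_of_aux hℓ hA hint hsurj hF hFk hx hbase hfund hchar0 hcusp r hr hℓr ι hι,
    x, hx, hbase⟩

end Fermat.Agent.S48WG23
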