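/-
S48 wall (W), block G, part G-23 (good reduction of `X₁(M)` at `p = 2, 3`): FINAL ASSEMBLY
(helper94).

At a level `M` with `4 ∣ M` or `9 ∣ M` every prime `p ∤ M` is `≥ 5`, or `p = 3` with `4 ∣ M`, or
`p = 2` with `9 ∣ M`.  For `p = 2, 3` the genus equality comes from the genus-`0` base
`B = modularFunctionFieldFullC k r` (`r = 4` resp. `9`) inside the residue field (`GenusGe.lean`):

* `EllOneStatement`     (ELL)    : the fibres of `x = j(q^M)` over `0` and `1728` have `n/3` and
                                   `n/2` points (`M ≥ 4`: no elliptic points);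
* `FrickeBaseStatement` (FRICKE) : the base `B` embeds in the residue field of `ℚ̄ F₁(M)`, `r ∣ M`,
                                   with `j̄ ↦ ` the residue of `j(q^M)`;
* `redInput23_of_base`  : `RedInput A (FOne M)` from the base function, BRANCH, ELL and the base;
* `goodRedOne23`        : `RedInput A (FOne M)` at `p = 2, 3`;
* `goodRedOne_of_leaves`: `GoodRedOne M` at the levels with `4 ∣ M` or `9 ∣ M`.
-/
import Mathlib
import Fermat.Agent.S48.W.G.P23.GenusGe
import Fermat.Agent.S48.W.G.P23.CuspRed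
import Fermat.Agent.S48.W.G.P23.CharZero
import Fermat.Agent.S48.W.G.Red.Igusa.DatDefs
import Fermat.Agent.S48.W.G.Red.Fund
import Fermat.Agent.S48.W.G.Red.Int
import Fermat.Agent.S48.W.G.Red.Res
import Fermat.Agent.S48.W.G.Red.Branch.SHyp
import Fermat.Agent.S48.W.A.Inputs
import Fermat.Agent.S48.W.H.Top

set_option autoImplicit false
set_option linter.style.haveILetI false
set_option linter.unusedSectionVars false
set_option linter.unusedVariables false
set_option synthInstance.maxHeartbeats 400000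
set_option maxHeartbeats 2000000

noncomputable section

namespace Fermat.Agent.S48WG23

open ModularCurve AlgebraicCurve IntermediateField Fermat.Agent.GaussInt Fermat.Agent.RR
  Fermat.Agent.RRMod Fermat.Agent.GoodRed Fermat.Agent.GenusEq Fermat.Agent.S48WG
  Fermat.Agent.S48W

local notation "Kb" => AlgebraicClosure ℚ

/-- (ELL) the fibres of `x = j(q^M)` on `ℚ̄ F₁(M)`, `M ≥ 4`, over `0` and `1728` have `n/3` and
`n/2` points (`Γ₁(M)` has no elliptic elements). -/
def EllOneStatement : Prop :=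
  ∀ (M : ℕ) [NeZero M], 4 ≤ M →
    ∀ x : ↥(FOneBar M), (x : LaurentSeries Kb) = qExpand Kb M (jqModC Kb) →
      3 * fibreCard Kb x 0 = Module.finrank ↥(Kb⟮x⟯) ↥(FOneBar M) ∧
      2 * fibreCard Kb x 1728 = Module.finrank ↥(Kb⟮x⟯) ↥(FOneBar M)

/-- (FRICKE) the genus-`0` base `B = k(j̄(q^d) : d ∣ r)` embeds in the residue field of
`ℚ̄ F₁(M)`, `r ∣ M`, at a place over `ℓ ∤ M`, with `j̄ ↦ ` the residue of the base function
`j(q^M)` (reduction of `(q ↦ q^{M/r}) ∘ W_r`). -/
def FrickeBaseStatement (r : ℕ) [NeZero r] : Prop :=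
  ∀ (M : ℕ) [NeZero M], r ∣ M → ∀ (ℓ : ℕ), ℓ.Prime → ¬ ℓ ∣ M →
    ∀ A : ValuationSubring Kb, A.LiesOverPrime ℓ →
      ∀ (x : LaurentSeries Kb) (hx : x ∈ gaussSub A (laurentBaseChange Kb (FOne M))),
        x = qExpand Kb M (jqModC Kb) → IsBaseFun A (FOne M) hx →
        ∃ ι : ↥(modularFunctionFieldFullC (IsLocalRing.ResidueField A) r)
            →ₐ[IsLocalRing.ResidueField A] ↥(resField A (FOne M)),
          ι (jC (IsLocalRing.ResidueField A) r) = resElt hx

variable {A : ValuationSubring Kb} {ℓ : ℕ}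

/-- **the good reduction input at an auxiliary level**, from the base function, the branch data
in characteristic `0` and the genus-`0` base. -/
theorem redInput23_of_base (M : ℕ) [NeZero M] (hℓ : ℓ.Prime) (hA : A.LiesOverPrime ℓ)
    {x : LaurentSeries Kb} (hx : x ∈ gaussSub A (laurentBaseChange Kb (FOne M)))
    (hbase : IsBaseFun A (FOne M) hx)
    (hunr : ∀ c : Kb, c ≠ 0 → c ≠ 1728 → fibreCard Kb (barElt hx) c =
      Module.finrank Kb⟮barElt hx⟯ ↥(laurentBaseChange Kb (FOne M)))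
    (h0 : 3 * fibreCard Kb (barElt hx) 0 =
      Module.finrank Kb⟮barElt hx⟯ ↥(laurentBaseChange Kb (FOne M)))
    (h1728 : 2 * fibreCard Kb (barElt hx) 1728 =
      Module.finrank Kb⟮barElt hx⟯ ↥(laurentBaseChange Kb (FOne M)))
    (r : ℕ) [NeZero r] (hr : r = 4 ∨ r = 9) (hℓr : ¬ ℓ ∣ r)
    (ι : ↥(modularFunctionFieldFullC (IsLocalRing.ResidueField A) r)
      →ₐ[IsLocalRing.ResidueField A] ↥(resField A (FOne M)))
    (hι : ι (jC (IsLocalRing.ResidueField A) r) = resElt hx) :
    RedInput A (FOne M) := by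
  have hint : IsIntGen A (FOne M) := isIntGen_FOne A M
  have hsurj : ResSurj A (FOne M) := resSurj A (FOne M)
  have hF : IsRRField Kb ↥(laurentBaseChange Kb (FOne M)) :=
    Fermat.Agent.S48WA.isRRField_FOneBar M (functionFieldOne M)
  have hFk : IsRRField (IsLocalRing.ResidueField A) ↥(resField A (FOne M)) :=
    isRRField_of_resElt hx hbase.2.2.1 hbase.2.2.2.1 hbase.2.2.2.2.1
  have hfund := (fund_of_barElt hx (redModel (redHyp hℓ hA hint) hsurj hx hbase.2.2.1)
    rfl rfl hbase.2.1).2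
  haveI : FiniteDimensional Kb⟮barElt hx⟯ ↥(laurentBaseChange Kb (FOne M)) := hbase.2.1
  have h1728ne : (1728 : Kb) ≠ 0 := by norm_num
  have hchar0 := twelve_genusFF_of_fibres hF hbase.1 (1728 : Kb) h1728ne hunr h0 h1728
  have hcusp := poleCount_resElt_eq hℓ hA hint hsurj hx hbase hfund (1728 : Kb)
    (br_1728_mem A) h1728ne hunr
  exact redInput_of_aux hℓ hA hint hsurj hF hFk hx hbase hfund hchar0 hcusp r hr hℓr ι hι

/-- **G-23**: the good reduction input of `X₁(M)` at a place over `p`, `r ∣ M` (`r = 4` or `9`),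
`p ∤ M`, from the deliverables of G-IGUSA, G-BRANCH, ELL and FRICKE. -/
theorem goodRedOne23 (hIg : IgusaOneStatement) (hBr : BranchOneStatement)
    (hEll : EllOneStatement) (r : ℕ) [NeZero r] (hr : r = 4 ∨ r = 9)
    (hFr : FrickeBaseStatement r) (M : ℕ) [NeZero M] (hrM : r ∣ M)
    (hℓ : ℓ.Prime) (hℓM : ¬ ℓ ∣ M) (hA : A.LiesOverPrime ℓ) :
    RedInput A (FOne M) := by
  have hM0 : 0 < M := Nat.pos_of_ne_zero (NeZero.ne M)
  have hM4 : 4 ≤ M := by
    have := Nat.le_of_dvd hM0 hrM
    rcases hr with rfl | rfl <;> omega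
  have hℓr : ¬ ℓ ∣ r := fun h => hℓM (h.trans hrM)
  obtain ⟨x, hx, hxe, hbase⟩ := hIg M (by omega) ℓ hℓ hℓM A hA
  have hxe' : ((barElt hx : ↥(FOneBar M)) : LaurentSeries Kb) = qExpand Kb M (jqModC Kb) := hxe
  obtain ⟨ι, hι⟩ := hFr M hrM ℓ hℓ hℓM A hA x hx hxe hbase
  exact redInput23_of_base M hℓ hA hx hbase
    (hBr M (by omega) (barElt hx) hxe')
    (hEll M hM4 (barElt hx) hxe').1 (hEll M hM4 (barElt hx) hxe').2 r hr hℓr ι hι

/-- **the deliverable `GoodRedOne M` at the levels of the gluing** (`4 ∣ M` or `9 ∣ M`):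
G-RED at `p ≥ 5`, G-23 at `p = 3` (`4 ∣ M`) and at `p = 2` (`9 ∣ M`). -/
theorem goodRedOne_of_leaves (hIg : IgusaOneStatement) (hBr : BranchOneStatement)
    (hEll : EllOneStatement) (hFr4 : FrickeBaseStatement 4) (hFr9 : FrickeBaseStatement 9)
    (hFive : ∀ (M : ℕ) [NeZero M], 2 ≤ M → GoodRedOneFive M)
    (M : ℕ) [NeZero M] (h49 : 4 ∣ M ∨ 9 ∣ M) : GoodRedOne M := by
  intro p hp hpM A hA
  have hM0 : 0 < M := Nat.pos_of_ne_zero (NeZero.ne M)
  have hM2 : 2 ≤ M := by
    rcases h49 with h | h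
    · have := Nat.le_of_dvd hM0 h; omega
    · have := Nat.le_of_dvd hM0 h; omega
  by_cases h5 : 5 ≤ p
  · exact hFive M hM2 p hp h5 hpM A hA
  · have hp23 : p = 2 ∨ p = 3 := by
      have h2 := hp.two_le
      have hlt : p < 5 := not_le.mp h5
      interval_cases p
      · exact Or.inl rfl
      · exact Or.inr rfl
      · exact absurd hp (by decide)
    rcases hp23 with rfl | rfl
    · -- `p = 2`: then `4 ∤ M`, so `9 ∣ M`
      have h9 : 9 ∣ M := by
        rcases h49 with h | h
        · exact absurd ((show 2 ∣ 4 by norm_num).trans h) hpM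
        · exact h
      exact goodRedOne23 hIg hBr hEll 9 (Or.inr rfl) hFr9 M h9 hp hpM hA
    · -- `p = 3`: then `9 ∤ M`, so `4 ∣ M`
      have h4 : 4 ∣ M := by
        rcases h49 with h | h
        · exact h
        · exact absurd ((show 3 ∣ 9 by norm_num).trans h) hpM
      exact goodRedOne23 hIg hBr hEll 4 (Or.inl rfl) hFr4 M h4 hp hpM hA

end Fermat.Agent.S48WG23
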