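/-
S48 wall (W), block G, part G-23, seat FRICKE (helper93): ABSTRACT TRANSPORT of Gauss rings.

`A` a valuation ring of `K`, residue field `k`;  `(F₁, O₁, ρ₁ : O₁ → κ₁)` and `(F₂, O₂, ρ₂ : O₂ → κ₂)`
two function fields over `K` with valuation rings over `A` and residue maps;  `x ∈ O₁` a base
function of `F₁` (`x̄` transcendental, `[F₁ : K(x)] ≤ [κ₁ : k(x̄)]`);  `φ : F₁ →ₐ[K] F₂` with
`φ x ∈ O₂` and residue of `φ x` transcendental over `k`.  THEN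

* `φ (O₁) ⊆ O₂`                                   (`fr_map_mem`),
* `φ` maps nonunits of `O₁` to the kernel of `ρ₂`  (`fr_map_nonunit`),
* there is `ι : κ₁ →ₐ[k] κ₂` with `ι (ρ₁ f) = ρ₂ (φ f)`  (`fr_exists_resHom`).

(Uniqueness of the extension of the Gauss valuation of `K(x)` when the degree is preserved;
the first half is the argument of P5 Diam, `Port/Diam.lean`.)
-/
import Mathlib
import Fermat.Agent.S48.W.G.Port.Diam

set_option autoImplicit false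

noncomputable section

namespace Fermat.Agent.S48WG23

open Polynomial IntermediateField Fermat.Agent.S48WPort

section NormalForm

variable {K F κ : Type*} [Field K] [Field F] [Field κ] [Algebra K F]
  {A : ValuationSubring K} [Algebra (IsLocalRing.ResidueField A) κ]
  {O : ValuationSubring F} {ρ : O →+* κ}

/-- a value of a primitive polynomial at an element with transcendental residue is a unit. -/
theorem fr_unit_aeval (hO : ∀ c : K, c ∈ A → algebraMap K F c ∈ O)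
    (hρ : ∀ (c : K) (hc : c ∈ A), ρ ⟨algebraMap K F c, hO c hc⟩ =
      algebraMap (IsLocalRing.ResidueField A) κ (IsLocalRing.residue A ⟨c, hc⟩))
    (hker : ∀ u : O, ¬ IsUnit u → ρ u = 0)
    (x : O) (htr : Transcendental (IsLocalRing.ResidueField A) (ρ x))
    (r₁ : A[X]) (hr₁ : r₁.map (IsLocalRing.residue A) ≠ 0) :
    ∃ P : Oˣ, ((P : O) : F) = aeval (x : F) (r₁.map A.subtype) := by
  obtain ⟨P, hP, hPρ⟩ := diam_res_aeval hO hρ x r₁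
  have hPne : ρ P ≠ 0 := by
    rw [hPρ]
    intro h0
    exact hr₁ (transcendental_iff.mp htr _ h0)
  have hPu : IsUnit P := by
    by_contra h
    exact hPne (hker P h)
  obtain ⟨Pu, rfl⟩ := hPu
  exact ⟨Pu, hP⟩

/-- **normal form** of the elements of `O ∩ K(x)`: `u · s₁(x) = c · r₁(x)` with `c ∈ A` and
`r₁, s₁ ∈ A[X]` primitive. -/
theorem fr_normal_form (hO : ∀ c : K, c ∈ A → algebraMap K F c ∈ O)
    (hO' : ∀ c : K, algebraMap K F c ∈ O → c ∈ A)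
    (hρ : ∀ (c : K) (hc : c ∈ A), ρ ⟨algebraMap K F c, hO c hc⟩ =
      algebraMap (IsLocalRing.ResidueField A) κ (IsLocalRing.residue A ⟨c, hc⟩))
    (hker : ∀ u : O, ¬ IsUnit u → ρ u = 0)
    (x : O) (htr : Transcendental (IsLocalRing.ResidueField A) (ρ x))
    (u : F) (huO : u ∈ O) (hu : u ∈ K⟮(x : F)⟯) :
    ∃ (c : K) (r₁ s₁ : A[X]), c ∈ A ∧ r₁.map (IsLocalRing.residue A) ≠ 0 ∧
      s₁.map (IsLocalRing.residue A) ≠ 0 ∧
      u * aeval (x : F) (s₁.map A.subtype) =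
        algebraMap K F c * aeval (x : F) (r₁.map A.subtype) := by
  by_cases hu0 : u = 0
  · refine ⟨0, 1, 1, zero_mem _, ?_, ?_, ?_⟩
    · rw [Polynomial.map_one]; exact one_ne_zero
    · rw [Polynomial.map_one]; exact one_ne_zero
    · rw [hu0, zero_mul, map_zero, zero_mul]
  obtain ⟨r, s, hrs⟩ := (IntermediateField.mem_adjoin_simple_iff K u).mp hu
  have hr0 : aeval (x : F) r ≠ 0 := by
    intro h0
    rw [h0, zero_div] at hrs
    exact hu0 hrs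
  have hs0 : aeval (x : F) s ≠ 0 := by
    intro h0
    rw [h0, div_zero] at hrs
    exact hu0 hrs
  have hr : r ≠ 0 := fun h => hr0 (by rw [h, map_zero])
  have hs : s ≠ 0 := fun h => hs0 (by rw [h, map_zero])
  obtain ⟨a, r₁, ha, hr₁, hr₁'⟩ := diam_exists_prim A r hr
  obtain ⟨b, s₁, hb, hs₁, hs₁'⟩ := diam_exists_prim A s hs
  obtain ⟨Pu, hP⟩ := fr_unit_aeval hO hρ hker x htr r₁ hr₁'
  obtain ⟨Su, hS⟩ := fr_unit_aeval hO hρ hker x htr s₁ hs₁'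
  have hPF : ((Pu : O) : F) ≠ 0 := by
    intro h0
    have : (Pu : O) = 0 := Subtype.ext h0
    exact Pu.ne_zero this
  have hSF : ((Su : O) : F) ≠ 0 := by
    intro h0
    have : (Su : O) = 0 := Subtype.ext h0
    exact Su.ne_zero this
  have h1 : aeval (x : F) r = algebraMap K F a * ((Pu : O) : F) := by
    rw [hP]
    conv_lhs => rw [hr₁]
    rw [map_mul, Polynomial.aeval_C]
  have h2 : aeval (x : F) s = algebraMap K F b * ((Su : O) : F) := by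
    rw [hS]
    conv_lhs => rw [hs₁]
    rw [map_mul, Polynomial.aeval_C]
  have hbF : algebraMap K F b ≠ 0 := by simpa using hb
  have hinvP : (((Pu⁻¹ : Oˣ) : O) : F) = (((Pu : O) : F))⁻¹ := by
    have h5 : ((Pu : O) : F) * (((Pu⁻¹ : Oˣ) : O) : F) = 1 :=
      congrArg (fun z : O => (z : F)) (Units.mul_inv Pu)
    exact eq_inv_of_mul_eq_one_right h5
  have h3 : algebraMap K F (a / b) = u * ((Su : O) : F) * (((Pu⁻¹ : Oˣ) : O) : F) := by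
    rw [hinvP, hrs, h1, h2, map_div₀]
    field_simp
  have hcO : algebraMap K F (a / b) ∈ O := by
    rw [h3]
    exact mul_mem (mul_mem huO (Su : O).2) ((Pu⁻¹ : Oˣ) : O).2
  have hcA : a / b ∈ A := hO' _ hcO
  refine ⟨a / b, r₁, s₁, hcA, hr₁', hs₁', ?_⟩
  rw [← hP, ← hS, hrs, h1, h2, map_div₀]
  field_simp

end NormalForm

section Integral

variable {K F k κ : Type*} [Field K] [Field F] [Field k] [Field κ] [Algebra K F] [Algebra k κ]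
  {O : ValuationSubring F} {ρ : O →+* κ} {E : IntermediateField K F}
  {κ₀ : IntermediateField k κ}

/-- every element of `O` is integral over `O ∩ E`, when `[F : E]` residues are linearly
independent over `κ₀ ⊇ ρ(O ∩ E)` (first half of `diam_stable`). -/
theorem fr_isIntegral [FiniteDimensional E F] {n : ℕ} (hn : Module.finrank E F = n)
    (hker : ∀ u : O, ¬ IsUnit u → ρ u = 0)
    (hE : ∀ u : O, (u : F) ∈ E → ρ u ∈ κ₀)
    (y : Fin n → O) (hy : LinearIndependent κ₀ (fun i => ρ (y i)))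
    (f : F) (hf : f ∈ O) :
    IsIntegral (↥(O.toSubring ⊓ E.toSubring)) f := by
  have hli := diam_linearIndependent hker hE y hy
  have hspan : Submodule.span E (Set.range fun i => ((y i : O) : F)) = ⊤ :=
    hli.span_eq_top_of_card_eq_finrank' (by rw [Fintype.card_fin, hn])
  have hcomb : ∀ z ∈ O, ∃ e : Fin n → E, (∀ i, (e i : F) ∈ O) ∧
      z = ∑ i, (e i : F) * ((y i : O) : F) := by
    intro z hz
    have hz' : z ∈ Submodule.span E (Set.range fun i => ((y i : O) : F)) := by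
      rw [hspan]
      trivial
    obtain ⟨e, he⟩ := (Submodule.mem_span_range_iff_exists_fun E).mp hz'
    have he' : z = ∑ i, (e i : F) * ((y i : O) : F) := by
      rw [← he]
      rfl
    exact ⟨e, fun i => diam_mem_of_sum_mem hker hE y hy e (he' ▸ hz) i, he'⟩
  let R : Subring F := O.toSubring ⊓ E.toSubring
  let N : Submodule R F := Submodule.span R (Set.range fun i => ((y i : O) : F))
  have hN_le : ∀ z ∈ N, z ∈ O := by
    intro z hz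
    induction hz using Submodule.span_induction with
    | mem z hz =>
      obtain ⟨i, rfl⟩ := hz
      exact (y i).2
    | zero => exact zero_mem _
    | add a b _ _ ha hb => exact add_mem ha hb
    | smul r a _ ha => exact mul_mem r.2.1 ha
  have hfN : ∀ z ∈ N, f • z ∈ N := by
    intro z hz
    have h1 : f * z ∈ O := mul_mem hf (hN_le z hz)
    obtain ⟨e, heO, hsum⟩ := hcomb _ h1
    rw [smul_eq_mul, hsum]
    refine Submodule.sum_mem _ fun i _ => ?_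
    have h2 : (e i : F) * ((y i : O) : F) =
        (⟨(e i : F), ⟨heO i, (e i).2⟩⟩ : R) • ((y i : O) : F) := rfl
    rw [h2]
    exact Submodule.smul_mem _ _ (Submodule.subset_span ⟨i, rfl⟩)
  have hnpos : 0 < n := by
    rw [← hn]
    exact Module.finrank_pos
  have hN0 : N ≠ ⊥ := by
    intro h0
    have h1 : ((y ⟨0, hnpos⟩ : O) : F) ∈ N := Submodule.subset_span ⟨⟨0, hnpos⟩, rfl⟩
    rw [h0, Submodule.mem_bot] at h1
    exact hli.ne_zero ⟨0, hnpos⟩ h1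
  exact isIntegral_of_smul_mem_submodule N hN0 (Submodule.fg_span (Set.finite_range _)) f hfN

end Integral

section Transport

variable {K F₁ F₂ κ₁ κ₂ : Type*} [Field K] [Field F₁] [Field F₂] [Field κ₁] [Field κ₂]
  [Algebra K F₁] [Algebra K F₂]
  {A : ValuationSubring K} [Algebra (IsLocalRing.ResidueField A) κ₁]
  [Algebra (IsLocalRing.ResidueField A) κ₂]
  {O₁ : ValuationSubring F₁} {ρ₁ : O₁ →+* κ₁} {O₂ : ValuationSubring F₂} {ρ₂ : O₂ →+* κ₂}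

/-- `φ` maps `O₁ ∩ K(x)` into `O₂`. -/
theorem fr_map_mem_base (hO₁ : ∀ c : K, c ∈ A → algebraMap K F₁ c ∈ O₁)
    (hO₁' : ∀ c : K, algebraMap K F₁ c ∈ O₁ → c ∈ A)
    (hρ₁ : ∀ (c : K) (hc : c ∈ A), ρ₁ ⟨algebraMap K F₁ c, hO₁ c hc⟩ =
      algebraMap (IsLocalRing.ResidueField A) κ₁ (IsLocalRing.residue A ⟨c, hc⟩))
    (hker₁ : ∀ u : O₁, ¬ IsUnit u → ρ₁ u = 0)
    (x : F₁) (hx : x ∈ O₁) (htr₁ : Transcendental (IsLocalRing.ResidueField A) (ρ₁ ⟨x, hx⟩))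
    (hO₂ : ∀ c : K, c ∈ A → algebraMap K F₂ c ∈ O₂)
    (hρ₂ : ∀ (c : K) (hc : c ∈ A), ρ₂ ⟨algebraMap K F₂ c, hO₂ c hc⟩ =
      algebraMap (IsLocalRing.ResidueField A) κ₂ (IsLocalRing.residue A ⟨c, hc⟩))
    (hker₂ : ∀ u : O₂, ¬ IsUnit u → ρ₂ u = 0)
    (φ : F₁ →ₐ[K] F₂) (hφx : φ x ∈ O₂)
    (htr₂ : Transcendental (IsLocalRing.ResidueField A) (ρ₂ ⟨φ x, hφx⟩))
    (u : F₁) (huO : u ∈ O₁) (hu : u ∈ K⟮x⟯) : φ u ∈ O₂ := by
  obtain ⟨c, r₁, s₁, hc, hr₁, hs₁, h⟩ :=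
    fr_normal_form hO₁ hO₁' hρ₁ hker₁ ⟨x, hx⟩ htr₁ u huO hu
  obtain ⟨Pu, hP⟩ := fr_unit_aeval hO₂ hρ₂ hker₂ ⟨φ x, hφx⟩ htr₂ r₁ hr₁
  obtain ⟨Su, hS⟩ := fr_unit_aeval hO₂ hρ₂ hker₂ ⟨φ x, hφx⟩ htr₂ s₁ hs₁
  have h' := congrArg φ h
  rw [map_mul, map_mul, AlgHom.commutes, ← Polynomial.aeval_algHom_apply,
    ← Polynomial.aeval_algHom_apply] at h'
  change φ u * aeval (φ x) (s₁.map A.subtype) =
    algebraMap K F₂ c * aeval (φ x) (r₁.map A.subtype) at h'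
  have hP' : ((Pu : O₂) : F₂) = aeval (φ x) (r₁.map A.subtype) := hP
  have hS' : ((Su : O₂) : F₂) = aeval (φ x) (s₁.map A.subtype) := hS
  rw [← hP', ← hS'] at h'
  have hSF : ((Su : O₂) : F₂) ≠ 0 := by
    intro h0
    have : (Su : O₂) = 0 := Subtype.ext h0
    exact Su.ne_zero this
  have hinvS : (((Su⁻¹ : O₂ˣ) : O₂) : F₂) = (((Su : O₂) : F₂))⁻¹ := by
    have h5 : ((Su : O₂) : F₂) * (((Su⁻¹ : O₂ˣ) : O₂) : F₂) = 1 :=
      congrArg (fun z : O₂ => (z : F₂)) (Units.mul_inv Su)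
    exact eq_inv_of_mul_eq_one_right h5
  have h3 : φ u = algebraMap K F₂ c * ((Pu : O₂) : F₂) * (((Su⁻¹ : O₂ˣ) : O₂) : F₂) := by
    rw [hinvS, ← h']
    field_simp
  rw [h3]
  exact mul_mem (mul_mem (hO₂ c hc) (Pu : O₂).2) ((Su⁻¹ : O₂ˣ) : O₂).2

/-- **`φ (O₁) ⊆ O₂`.** -/
theorem fr_map_mem (hO₁ : ∀ c : K, c ∈ A → algebraMap K F₁ c ∈ O₁)
    (hO₁' : ∀ c : K, algebraMap K F₁ c ∈ O₁ → c ∈ A)
    (hρ₁ : ∀ (c : K) (hc : c ∈ A), ρ₁ ⟨algebraMap K F₁ c, hO₁ c hc⟩ =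
      algebraMap (IsLocalRing.ResidueField A) κ₁ (IsLocalRing.residue A ⟨c, hc⟩))
    (hker₁ : ∀ u : O₁, ¬ IsUnit u → ρ₁ u = 0) (hsurj₁ : Function.Surjective ρ₁)
    (x : F₁) (hx : x ∈ O₁) (htr₁ : Transcendental (IsLocalRing.ResidueField A) (ρ₁ ⟨x, hx⟩))
    [FiniteDimensional K⟮x⟯ F₁]
    (hdeg : Module.finrank K⟮x⟯ F₁ ≤
      Module.finrank (IsLocalRing.ResidueField A)⟮ρ₁ ⟨x, hx⟩⟯ κ₁)
    (hO₂ : ∀ c : K, c ∈ A → algebraMap K F₂ c ∈ O₂)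
    (hρ₂ : ∀ (c : K) (hc : c ∈ A), ρ₂ ⟨algebraMap K F₂ c, hO₂ c hc⟩ =
      algebraMap (IsLocalRing.ResidueField A) κ₂ (IsLocalRing.residue A ⟨c, hc⟩))
    (hker₂ : ∀ u : O₂, ¬ IsUnit u → ρ₂ u = 0)
    (φ : F₁ →ₐ[K] F₂) (hφx : φ x ∈ O₂)
    (htr₂ : Transcendental (IsLocalRing.ResidueField A) (ρ₂ ⟨φ x, hφx⟩))
    (f : F₁) (hf : f ∈ O₁) : φ f ∈ O₂ := by
  have hE : ∀ u : O₁, (u : F₁) ∈ K⟮x⟯ → ρ₁ u ∈ (IsLocalRing.ResidueField A)⟮ρ₁ ⟨x, hx⟩⟯ :=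
    fun u hu => diam_res_mem hO₁ hO₁' hρ₁ hker₁ ⟨x, hx⟩ htr₁ u hu
  obtain ⟨y, hy⟩ := diam_exists_lift (E := K⟮x⟯) (ρ := ρ₁) hdeg hsurj₁
  obtain ⟨q, hq, hqf⟩ := fr_isIntegral (E := K⟮x⟯) rfl hker₁ hE y hy f hf
  let R : Subring F₁ := O₁.toSubring ⊓ (K⟮x⟯).toSubring
  let φR : R →+* O₂ :=
    { toFun := fun r => ⟨φ (r : F₁),
        fr_map_mem_base hO₁ hO₁' hρ₁ hker₁ x hx htr₁ hO₂ hρ₂ hker₂ φ hφx htr₂ _ r.2.1 r.2.2⟩
      map_one' := Subtype.ext (map_one φ)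
      map_mul' := fun a b => Subtype.ext (map_mul φ _ _)
      map_zero' := Subtype.ext (map_zero φ)
      map_add' := fun a b => Subtype.ext (map_add φ _ _) }
  have hcomp : (O₂.subtype : O₂ →+* F₂).comp φR = (φ : F₁ →+* F₂).comp (algebraMap R F₁) := by
    ext r
    rfl
  have hqφ : q.eval₂ ((O₂.subtype : O₂ →+* F₂).comp φR) (φ f) = 0 := by
    rw [hcomp]
    have h1 := Polynomial.hom_eval₂ q (algebraMap R F₁) (φ : F₁ →+* F₂) f
    rw [hqf, map_zero] at h1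
    exact h1.symm
  have hintO : IsIntegral O₂ (φ f) := by
    refine ⟨q.map φR, hq.map _, ?_⟩
    rw [Polynomial.eval₂_map]
    exact hqφ
  obtain ⟨w, hw⟩ := IsIntegrallyClosed.isIntegral_iff.mp hintO
  rw [← hw]
  exact w.2

/-- `φ` maps the nonunits of `O₁` into the kernel of `ρ₂`. -/
theorem fr_map_nonunit (hO₁ : ∀ c : K, c ∈ A → algebraMap K F₁ c ∈ O₁)
    (hO₁' : ∀ c : K, algebraMap K F₁ c ∈ O₁ → c ∈ A)
    (hval₁ : ∀ f : F₁, f ≠ 0 → ∃ c : K, c ≠ 0 ∧ ∃ h : algebraMap K F₁ c * f ∈ O₁,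
      IsUnit (⟨_, h⟩ : O₁))
    (hO₂ : ∀ c : K, c ∈ A → algebraMap K F₂ c ∈ O₂)
    (hρ₂ : ∀ (c : K) (hc : c ∈ A), ρ₂ ⟨algebraMap K F₂ c, hO₂ c hc⟩ =
      algebraMap (IsLocalRing.ResidueField A) κ₂ (IsLocalRing.residue A ⟨c, hc⟩))
    (φ : F₁ →ₐ[K] F₂) (hφ : ∀ f ∈ O₁, φ f ∈ O₂)
    (u : O₁) (hu : ¬ IsUnit u) : ρ₂ ⟨φ (u : F₁), hφ _ u.2⟩ = 0 := by
  by_cases hu0 : (u : F₁) = 0
  · have : (⟨φ (u : F₁), hφ _ u.2⟩ : O₂) = 0 := by
      apply Subtype.ext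
      show φ (u : F₁) = 0
      rw [hu0, map_zero]
    rw [this, map_zero]
  obtain ⟨c, hc0, hmem, hunit⟩ := hval₁ (u : F₁) hu0
  obtain ⟨w, hw⟩ := hunit
  have hwF : ((w : O₁) : F₁) = algebraMap K F₁ c * (u : F₁) := congrArg Subtype.val hw
  have hinvw : (((w⁻¹ : O₁ˣ) : O₁) : F₁) = (((w : O₁) : F₁))⁻¹ := by
    have h5 : ((w : O₁) : F₁) * (((w⁻¹ : O₁ˣ) : O₁) : F₁) = 1 :=
      congrArg (fun z : O₁ => (z : F₁)) (Units.mul_inv w)
    exact eq_inv_of_mul_eq_one_right h5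
  have hcF : algebraMap K F₁ c ≠ 0 := by simpa using hc0
  -- `c⁻¹ = u · w⁻¹ ∈ O₁`
  have h1 : algebraMap K F₁ c⁻¹ = (u : F₁) * (((w⁻¹ : O₁ˣ) : O₁) : F₁) := by
    rw [hinvw, hwF, map_inv₀]
    field_simp
  have hcO : algebraMap K F₁ c⁻¹ ∈ O₁ := by
    rw [h1]
    exact mul_mem u.2 ((w⁻¹ : O₁ˣ) : O₁).2
  have hcA : c⁻¹ ∈ A := hO₁' _ hcO
  -- `c⁻¹` is not a unit of `A`
  have hcnu : ¬ IsUnit (⟨c⁻¹, hcA⟩ : A) := by
    intro hcu
    have hcA' : c ∈ A := by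
      obtain ⟨v, hv⟩ := hcu
      have h2 : ((v : A) : K) * (((v⁻¹ : Aˣ) : A) : K) = 1 :=
        congrArg (fun z : A => (z : K)) (Units.mul_inv v)
      have h3 : ((v : A) : K) = c⁻¹ := congrArg Subtype.val hv
      rw [h3] at h2
      have h4 : (((v⁻¹ : Aˣ) : A) : K) = c := by
        have := eq_inv_of_mul_eq_one_right h2
        rw [this, inv_inv]
      rw [← h4]
      exact ((v⁻¹ : Aˣ) : A).2
    apply hu
    have h5 : u * (⟨algebraMap K F₁ c, hO₁ c hcA'⟩ * ((w⁻¹ : O₁ˣ) : O₁)) = 1 := by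
      apply Subtype.ext
      show (u : F₁) * (algebraMap K F₁ c * (((w⁻¹ : O₁ˣ) : O₁) : F₁)) = 1
      rw [hinvw, hwF]
      field_simp
    exact IsUnit.of_mul_eq_one _ h5
  have hres : IsLocalRing.residue A ⟨c⁻¹, hcA⟩ = 0 := by
    rw [IsLocalRing.residue_eq_zero_iff, IsLocalRing.mem_maximalIdeal, mem_nonunits_iff]
    exact hcnu
  -- `φ u = c⁻¹ · φ w`
  have h6 : (⟨φ (u : F₁), hφ _ u.2⟩ : O₂) =
      ⟨algebraMap K F₂ c⁻¹, hO₂ _ hcA⟩ * ⟨φ ((w : O₁) : F₁), hφ _ (w : O₁).2⟩ := by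
    apply Subtype.ext
    show φ (u : F₁) = algebraMap K F₂ c⁻¹ * φ ((w : O₁) : F₁)
    rw [hwF, map_mul, AlgHom.commutes, ← mul_assoc, ← map_mul, inv_mul_cancel₀ hc0, map_one,
      one_mul]
  rw [h6, map_mul, hρ₂ _ hcA, hres, map_zero, zero_mul]

/-- **the induced map of residue fields**: `ι : κ₁ →ₐ[k] κ₂` with `ι (ρ₁ f) = ρ₂ (φ f)`. -/
theorem fr_exists_resHom (hO₁ : ∀ c : K, c ∈ A → algebraMap K F₁ c ∈ O₁)
    (hO₁' : ∀ c : K, algebraMap K F₁ c ∈ O₁ → c ∈ A)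
    (hρ₁ : ∀ (c : K) (hc : c ∈ A), ρ₁ ⟨algebraMap K F₁ c, hO₁ c hc⟩ =
      algebraMap (IsLocalRing.ResidueField A) κ₁ (IsLocalRing.residue A ⟨c, hc⟩))
    (hker₁ : ∀ u : O₁, ¬ IsUnit u → ρ₁ u = 0) (hsurj₁ : Function.Surjective ρ₁)
    (hval₁ : ∀ f : F₁, f ≠ 0 → ∃ c : K, c ≠ 0 ∧ ∃ h : algebraMap K F₁ c * f ∈ O₁,
      IsUnit (⟨_, h⟩ : O₁))
    (x : F₁) (hx : x ∈ O₁) (htr₁ : Transcendental (IsLocalRing.ResidueField A) (ρ₁ ⟨x, hx⟩))
    [FiniteDimensional K⟮x⟯ F₁]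
    (hdeg : Module.finrank K⟮x⟯ F₁ ≤
      Module.finrank (IsLocalRing.ResidueField A)⟮ρ₁ ⟨x, hx⟩⟯ κ₁)
    (hO₂ : ∀ c : K, c ∈ A → algebraMap K F₂ c ∈ O₂)
    (hρ₂ : ∀ (c : K) (hc : c ∈ A), ρ₂ ⟨algebraMap K F₂ c, hO₂ c hc⟩ =
      algebraMap (IsLocalRing.ResidueField A) κ₂ (IsLocalRing.residue A ⟨c, hc⟩))
    (hker₂ : ∀ u : O₂, ¬ IsUnit u → ρ₂ u = 0)
    (φ : F₁ →ₐ[K] F₂) (hφx : φ x ∈ O₂)
    (htr₂ : Transcendental (IsLocalRing.ResidueField A) (ρ₂ ⟨φ x, hφx⟩)) :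
    ∃ (hφ : ∀ f ∈ O₁, φ f ∈ O₂) (ι : κ₁ →ₐ[IsLocalRing.ResidueField A] κ₂),
      ∀ (f : F₁) (hf : f ∈ O₁), ι (ρ₁ ⟨f, hf⟩) = ρ₂ ⟨φ f, hφ f hf⟩ := by
  have hφ : ∀ f ∈ O₁, φ f ∈ O₂ := fun f hf =>
    fr_map_mem hO₁ hO₁' hρ₁ hker₁ hsurj₁ x hx htr₁ hdeg hO₂ hρ₂ hker₂ φ hφx htr₂ f hf
  let g : O₁ →+* κ₂ := ρ₂.comp
    { toFun := fun f => (⟨φ (f : F₁), hφ _ f.2⟩ : O₂)
      map_one' := Subtype.ext (map_one φ)
      map_mul' := fun a b => Subtype.ext (map_mul φ _ _)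
      map_zero' := Subtype.ext (map_zero φ)
      map_add' := fun a b => Subtype.ext (map_add φ _ _) }
  have hg : ∀ f : O₁, g f = ρ₂ ⟨φ (f : F₁), hφ _ f.2⟩ := fun f => rfl
  have hkerg : RingHom.ker ρ₁ ≤ RingHom.ker g := by
    intro u hu
    rw [RingHom.mem_ker] at hu ⊢
    have hnu : ¬ IsUnit u := by
      intro hunit
      have := hunit.map ρ₁
      rw [hu] at this
      exact not_isUnit_zero this
    rw [hg]
    exact fr_map_nonunit hO₁ hO₁' hval₁ hO₂ hρ₂ φ hφ u hnu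
  let ι₀ : κ₁ →+* κ₂ := RingHom.liftOfSurjective ρ₁ hsurj₁ ⟨g, hkerg⟩
  have hι₀ : ∀ f : O₁, ι₀ (ρ₁ f) = g f := fun f =>
    RingHom.liftOfRightInverse_comp_apply ρ₁ _ (Function.rightInverse_surjInv hsurj₁) ⟨g, hkerg⟩ f
  have hcomm : ∀ c : IsLocalRing.ResidueField A,
      ι₀ (algebraMap (IsLocalRing.ResidueField A) κ₁ c) =
        algebraMap (IsLocalRing.ResidueField A) κ₂ c := by
    intro c
    obtain ⟨a, rfl⟩ := IsLocalRing.residue_surjective c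
    have h1 := hρ₁ (a : K) a.2
    have h2 := hρ₂ (a : K) a.2
    rw [← h1, hι₀, hg, ← h2]
    congr 1
    apply Subtype.ext
    exact φ.commutes _
  refine ⟨hφ, { ι₀ with commutes' := hcomm }, fun f hf => ?_⟩
  exact hι₀ ⟨f, hf⟩

end Transport

end Fermat.Agent.S48WG23
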