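import Mathlib
import Fermat.Agent.Lib.BadRed.AtkinLehner
import Fermat.Agent.S24.EmbF
import Fermat.Agent.S48.W.Defs

/-!
# S48 wall (W), block G, seat G-23 BASE via the Fricke involution, char-`0` map (helper10)

`frickePhi r s : F̄_r →ₐ[ℚ̄] ℚ̄ · FOne (r s)`, `φ = (q ↦ q^s) ∘ W_r`, where `W_r` is the Fricke
involution (`AtkinLehner.atkinLehner` with `Q = r`, `R = 1`) of the function field of `X₀(r)`:

* `frickePhi_jF`   : `φ (j(q^d)) = j(q^{s e})` for `d e = r`;
* `frickePhi_jBar` : `φ (j) = j(q^{r s})`, the base function of G-RED at level `r s`.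
-/

set_option autoImplicit false
set_option linter.unusedVariables false
set_option linter.unusedSectionVars false
set_option linter.style.haveILetI false
set_option synthInstance.maxHeartbeats 400000

noncomputable section

namespace Fermat.Agent.S48WG23

open ModularCurve IntermediateField Fermat.Agent.AtkinLehner Fermat.Agent.S24 Fermat.Agent.S48W

/-- `qExpand` only depends on the number. -/
theorem qExpand_congr_nat {R : Type*} [CommRing R] {a b : ℕ} [NeZero a] [NeZero b] (h : a = b)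
    (f : LaurentSeries R) : qExpand R a f = qExpand R b f := by
  subst h
  rfl

/-- the Fricke data `Q = r`, `R = 1`. -/
def frickeData (r : ℕ) [NeZero r] : ALData :=
  ⟨r, 1, 1, (r : ℤ) - 1, Nat.pos_of_ne_zero (NeZero.ne r), one_pos, by push_cast; ring⟩

theorem frickeData_mul (r : ℕ) [NeZero r] : (frickeData r).Q * (frickeData r).R = r :=
  Nat.mul_one r

/-- transport of the Atkin–Lehner involution along `Q R = N`. -/
def alCast (D : ALData) {N : ℕ} (h : D.Q * D.R = N) :
    ↥(modularFunctionFieldBar N) ≃ₐ[Kbar] ↥(modularFunctionFieldBar N) :=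
  h ▸ atkinLehner D

theorem alCast_jF (D : ALData) {N : ℕ} (h : D.Q * D.R = N) (d e : ℕ) [NeZero d] [NeZero e]
    (hde : d * e = D.Q) (hR : D.R = 1) (hd : d ∣ N) (he : e ∣ N) :
    alCast D h (jF N d hd) = jF N e he := by
  subst h
  haveI : NeZero (d * 1) := ⟨by rw [mul_one]; exact NeZero.ne d⟩
  haveI : NeZero (e * 1) := ⟨by rw [mul_one]; exact NeZero.ne e⟩
  have h1 : d * 1 ∣ D.Q * D.R := by rw [mul_one]; exact hd
  have h2 : e * 1 ∣ D.Q * D.R := by rw [mul_one]; exact he
  have key := atkinLehner_jF D d e 1 1 hde (by rw [hR]) h1 h2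
  rw [jF_congr (D.Q * D.R) (mul_one d).symm hd h1, jF_congr (D.Q * D.R) (mul_one e).symm he h2]
  exact key

/-- **the Fricke involution** `W_r` of the function field of `X₀(r)` over `ℚ̄`. -/
def frickeInv (r : ℕ) [NeZero r] :
    ↥(modularFunctionFieldBar r) ≃ₐ[Kbar] ↥(modularFunctionFieldBar r) :=
  alCast (frickeData r) (frickeData_mul r)

/-- `W_r (j(q^d)) = j(q^{r/d})`. -/
theorem frickeInv_jF (r d e : ℕ) [NeZero r] [NeZero d] [NeZero e] (hde : d * e = r)
    (hd : d ∣ r) (he : e ∣ r) : frickeInv r (jF r d hd) = jF r e he :=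
  alCast_jF (frickeData r) (frickeData_mul r) d e hde rfl hd he

/-- `j(q^{s d})`, `d ∣ r`, lies in `ℚ̄ · FOne (r s)`. -/
theorem qExpand_jqModC_mem_FOneBar (r s d : ℕ) [NeZero (r * s)] [NeZero (s * d)] (hd : d ∣ r) :
    qExpand Kbar (s * d) (jqModC Kbar) ∈ FOneBar (r * s) := by
  rw [← coeffEmb_qExpand_jq]
  refine coeffEmb_mem_laurentBaseChange Kbar (full_le_FOne (r * s) (jqd_mem_full (r * s) ?_))
  rw [mul_comm s d]
  exact Nat.mul_dvd_mul_right hd s

/-- the scaled function field of `X₀(r)` lies in `ℚ̄ · FOne (r s)`. -/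
theorem map_FBar_le_FOneBar (r s : ℕ) [NeZero r] [NeZero s] [NeZero (r * s)] :
    (modularFunctionFieldBar r).map (qExpandAlgHomC Kbar s) ≤ FOneBar (r * s) := by
  rw [modularFunctionFieldBar_eq_adjoin, IntermediateField.adjoin_map, adjoin_le_iff]
  rintro x ⟨y, ⟨d, hne, hdvd, rfl⟩, rfl⟩
  have := hne
  haveI hsd : NeZero (s * d) := ⟨Nat.mul_ne_zero (NeZero.ne s) (NeZero.ne d)⟩
  rw [qExpandAlgHomC_apply, qExpand_qExpand]
  exact qExpand_jqModC_mem_FOneBar r s d hdvd

/-- the scaling `f(q) ↦ f(q^s)`, from the function field of `X₀(r)` to that of `X₁(r s)`. -/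
def scaleBar (r s : ℕ) [NeZero r] [NeZero s] [NeZero (r * s)] :
    ↥(modularFunctionFieldBar r) →ₐ[Kbar] ↥(FOneBar (r * s)) :=
  (IntermediateField.inclusion (map_FBar_le_FOneBar r s)).comp
    ((modularFunctionFieldBar r).equivMap (qExpandAlgHomC Kbar s)).toAlgHom

theorem coe_scaleBar (r s : ℕ) [NeZero r] [NeZero s] [NeZero (r * s)]
    (f : ↥(modularFunctionFieldBar r)) :
    ((scaleBar r s f : ↥(FOneBar (r * s))) : LaurentSeries Kbar) =
      qExpand Kbar s (f : LaurentSeries Kbar) := rfl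

/-- **the char-`0` map** `φ = (q ↦ q^s) ∘ W_r`. -/
def frickePhi (r s : ℕ) [NeZero r] [NeZero s] [NeZero (r * s)] :
    ↥(modularFunctionFieldBar r) →ₐ[Kbar] ↥(FOneBar (r * s)) :=
  (scaleBar r s).comp (frickeInv r).toAlgHom

theorem frickePhi_apply (r s : ℕ) [NeZero r] [NeZero s] [NeZero (r * s)]
    (f : ↥(modularFunctionFieldBar r)) :
    frickePhi r s f = scaleBar r s (frickeInv r f) := rfl

/-- `φ (j(q^d)) = j(q^{s e})` for `d e = r`. -/
theorem frickePhi_jF (r s d e : ℕ) [NeZero r] [NeZero s] [NeZero (r * s)] [NeZero d] [NeZero e]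
    [NeZero (s * e)] (hde : d * e = r) (hd : d ∣ r) :
    ((frickePhi r s (jF r d hd) : ↥(FOneBar (r * s))) : LaurentSeries Kbar) =
      qExpand Kbar (s * e) (jqModC Kbar) := by
  rw [frickePhi_apply, frickeInv_jF r d e hde hd ⟨d, by rw [← hde, mul_comm]⟩, coe_scaleBar,
    coe_jF, qExpand_qExpand]

theorem jBar_eq_jF (r : ℕ) [NeZero r] : jBar r = jF r 1 (one_dvd r) := by
  apply Subtype.ext
  rw [coe_jBar_eq_jqModC, coe_jF, qExpand_one_apply]

/-- **`φ (j) = j(q^{r s})`**: the image of `j` is the base function of G-RED at level `r s`. -/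
theorem frickePhi_jBar (r s : ℕ) [NeZero r] [NeZero s] [NeZero (r * s)] :
    ((frickePhi r s (jBar r) : ↥(FOneBar (r * s))) : LaurentSeries Kbar) =
      qExpand Kbar (r * s) (jqModC Kbar) := by
  haveI : NeZero (s * r) := ⟨Nat.mul_ne_zero (NeZero.ne s) (NeZero.ne r)⟩
  rw [jBar_eq_jF, frickePhi_jF r s 1 r (one_mul r) (one_dvd r)]
  exact qExpand_congr_nat (mul_comm s r) _

/-- `φ` is injective (a homomorphism of fields). -/
theorem frickePhi_injective (r s : ℕ) [NeZero r] [NeZero s] [NeZero (r * s)] :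
    Function.Injective (frickePhi r s) :=
  (frickePhi r s).toRingHom.injective

end Fermat.Agent.S48WG23
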