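/-
S48 wall (W), block G, part G-23, seat FRICKE (helper93): THE BASE EMBEDDING for the base function
`x = j(q^{M'})` of G-RED, `M' = r s`.

`exists_baseEmb_fricke`: for a prime `ℓ ∤ r` and a place `A` over `ℓ` there is
`ι : modularFunctionFieldFullC k r →ₐ[k] resField A (FOne (r s))` with `ι (jC k r) = resElt hx`,
`x = j(q^{r s})`.  It is the reduction of the characteristic `0` map
`frickePhi r s = (q ↦ q^s) ∘ W_r` (helper10, `FrickePhi.lean`), by the abstract transport
`fr_exists_resHom` (`FrickeAbs.lean`): the Gauss valuation of the function field of `X₀(r)` is the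
only extension of the Gauss valuation of `ℚ̄(j)` (degree is preserved: cluster B).

This is exactly the hypothesis `ι`, `hι` of `genusFF_ge_of_aux` / `redInput_of_aux`
(`GenusGe.lean`) for the base function of G-IGUSA.
-/
import Mathlib
import Fermat.Agent.S48.W.G.P23.FrickeAbs
import Fermat.Agent.S48.W.G.P23.FrickePhi
import Fermat.Agent.S48.W.G.P23.BaseScaled
import Fermat.Agent.S48.W.G.Red.Int
import Fermat.Agent.S48.W.G.Red.Model
import Fermat.Agent.Lib.GoodRed.ModularData
import Fermat.Agent.Lib.GaussVal.Degree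
import Fermat.Agent.Lib.FrobTrace.Residue

set_option autoImplicit false
set_option linter.unusedVariables false
set_option linter.unusedSectionVars false
set_option linter.style.haveILetI false
set_option synthInstance.maxHeartbeats 400000
set_option maxHeartbeats 1000000

noncomputable section

namespace Fermat.Agent.S48WG23

open ModularCurve AlgebraicCurve IntermediateField Fermat.Agent.GaussInt Fermat.Agent.S48WG
  Fermat.Agent.S48W Fermat.Agent.S24 Fermat.Agent.GoodRed

local notation "Kb" => AlgebraicClosure ℚ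

variable {A : ValuationSubring Kb} {ℓ : ℕ}

/-- **FRICKE**: the genus-`0` base of level `r` inside the residue field of `ℚ̄ F₁(r s)`, with
`j̄ ↦` the residue of the base function `j(q^{r s})` of G-RED. -/
theorem exists_baseEmb_fricke (hℓ : ℓ.Prime) (hA : A.LiesOverPrime ℓ) (r s : ℕ) [NeZero r]
    [NeZero s] [NeZero (r * s)] (hℓr : ¬ ℓ ∣ r)
    (hx : qExpand Kb (r * s) (jqModC Kb) ∈ gaussSub A (laurentBaseChange Kb (FOne (r * s))))
    (htr : Transcendental (IsLocalRing.ResidueField A) (resElt hx)) :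
    ∃ ι : ↥(modularFunctionFieldFullC (IsLocalRing.ResidueField A) r)
        →ₐ[IsLocalRing.ResidueField A] ↥(resField A (FOne (r * s))),
      ι (Fermat.Agent.RRMod.jC (IsLocalRing.ResidueField A) r) = resElt hx := by
  haveI : IsAlgClosed (IsLocalRing.ResidueField A) :=
    Fermat.Agent.FrobTrace.isAlgClosed_residueField A
  haveI : Fact ℓ.Prime := ⟨hℓ⟩
  have h₁ : GaussHyp A (modularFunctionFieldFull r) ℓ := gaussHyp_modular r hℓ hA
  have h₂ : GaussHyp A (FOne (r * s)) ℓ := ⟨hℓ, hA, isIntGen_FOne A (r * s)⟩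
  obtain ⟨hR3, hRS⟩ := rangeAt r hℓ hA hℓr
  -- the two residue maps
  set O₁ := gaussValSub h₁ with hO₁def
  set ρ₁ := gaussValResTo h₁ (modularFunctionFieldFullC (IsLocalRing.ResidueField A) r) hR3
    with hρ₁def
  have hR3₂ : ∀ f ∈ gaussSub A (laurentBaseChange Kb (FOne (r * s))),
      gaussResFun A (laurentBaseChange Kb (FOne (r * s))) f ∈ resField A (FOne (r * s)) :=
    fun f hf => IntermediateField.subset_adjoin _ _ ⟨f, hf, rfl⟩
  set O₂ := gaussValSub h₂ with hO₂def
  set ρ₂ := gaussValResTo h₂ (resField A (FOne (r * s))) hR3₂ with hρ₂def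
  -- the base function of level `r`
  have hjmem : (jBar r : ↥(modularFunctionFieldBar r)) ∈ O₁ := by
    show ((jBar r : ↥(modularFunctionFieldBar r)) : LaurentSeries Kb) ∈
      gaussSub A (laurentBaseChange Kb (modularFunctionFieldFull r))
    rw [coe_jBar]
    exact coeffEmb_jq_mem_gaussSub (by
      have h := jqd_mem_full r (one_dvd r)
      rwa [qExpand_one_apply] at h)
  have hρj : ρ₁ ⟨jBar r, hjmem⟩ = Fermat.Agent.RRMod.jC (IsLocalRing.ResidueField A) r := by
    apply Subtype.ext
    show gaussResFun A (laurentBaseChange Kb (modularFunctionFieldFull r))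
      ((jBar r : ↥(modularFunctionFieldBar r)) : LaurentSeries Kb) = _
    rw [coe_jBar]
    have hx' : coeffEmb Kb jq ∈ gaussSub A (laurentBaseChange Kb (modularFunctionFieldFull r)) := by
      have := hjmem
      rwa [hO₁def, mem_gaussValSub_iff, coe_jBar] at this
    rw [gaussResFun_coeffEmb_jq hx']
    rfl
  have htr₁ : Transcendental (IsLocalRing.ResidueField A) (ρ₁ ⟨jBar r, hjmem⟩) := by
    rw [hρj]
    exact Fermat.Agent.RRMod.transcendental_jC (IsLocalRing.ResidueField A) r
  haveI : FiniteDimensional Kb⟮jBar r⟯ ↥(modularFunctionFieldBar r) :=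
    (isFunctionFieldOver_jBar r).2
  have hdeg : Module.finrank Kb⟮jBar r⟯ ↥(modularFunctionFieldBar r) ≤
      Module.finrank (IsLocalRing.ResidueField A)⟮ρ₁ ⟨jBar r, hjmem⟩⟯
        ↥(modularFunctionFieldFullC (IsLocalRing.ResidueField A) r) := by
    rw [hρj]
    exact (Fermat.Agent.GaussVal.finrank_fullC_eq_finrank_fullL A ℓ r hA hℓr
      (Fermat.Agent.RRMod.jC (IsLocalRing.ResidueField A) r) rfl (jBar r)
      (coe_jBar_eq_jqModC r)).ge
  have hval₁ : ∀ f : ↥(modularFunctionFieldBar r), f ≠ 0 → ∃ c : Kb, c ≠ 0 ∧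
      ∃ h : algebraMap Kb ↥(modularFunctionFieldBar r) c * f ∈ O₁, IsUnit (⟨_, h⟩ : O₁) := by
    intro f hf
    obtain ⟨c, hc, hmem, hres⟩ := exists_const_mul_mem_gaussSub h₁.isPrime h₁.liesOver
      h₁.isIntGen f.2 (fun h0 => hf (Subtype.ext h0))
    refine ⟨c, hc, hmem, ?_⟩
    rw [← not_not (a := IsUnit _),
      ← gaussValResTo_eq_zero_iff h₁ (modularFunctionFieldFullC (IsLocalRing.ResidueField A) r)
        hR3]
    intro h0
    exact hres (congrArg Subtype.val h0)
  -- the characteristic `0` map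
  have hφx : frickePhi r s (jBar r) ∈ O₂ := by
    show ((frickePhi r s (jBar r) : ↥(FOneBar (r * s))) : LaurentSeries Kb) ∈
      gaussSub A (laurentBaseChange Kb (FOne (r * s)))
    rw [frickePhi_jBar]
    exact hx
  have hρ₂x : ρ₂ ⟨frickePhi r s (jBar r), hφx⟩ = resElt hx := by
    apply Subtype.ext
    show gaussResFun A (laurentBaseChange Kb (FOne (r * s)))
      ((frickePhi r s (jBar r) : ↥(FOneBar (r * s))) : LaurentSeries Kb) =
      gaussResFun A (laurentBaseChange Kb (FOne (r * s))) (qExpand Kb (r * s) (jqModC Kb))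
    rw [frickePhi_jBar]
  have htr₂ : Transcendental (IsLocalRing.ResidueField A) (ρ₂ ⟨frickePhi r s (jBar r), hφx⟩) := by
    rw [hρ₂x]
    exact htr
  obtain ⟨hφ, ι, hι⟩ := fr_exists_resHom (A := A) (O₁ := O₁) (ρ₁ := ρ₁) (O₂ := O₂) (ρ₂ := ρ₂)
    (fun c hc => (gaussValSub_mem_iff_const h₁ c).mpr hc)
    (fun c hc => (gaussValSub_mem_iff_const h₁ c).mp hc)
    (fun c hc => gaussValResTo_algebraMap h₁ _ hR3 c hc _)
    (fun u hu => (gaussValResTo_eq_zero_iff h₁ _ hR3 u).mpr hu)
    (gaussValResTo_surjective h₁ _ hR3 hRS)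
    hval₁ (jBar r) hjmem htr₁ hdeg
    (fun c hc => (gaussValSub_mem_iff_const h₂ c).mpr hc)
    (fun c hc => gaussValResTo_algebraMap h₂ _ hR3₂ c hc _)
    (fun u hu => (gaussValResTo_eq_zero_iff h₂ _ hR3₂ u).mpr hu)
    (frickePhi r s) hφx htr₂
  refine ⟨ι, ?_⟩
  rw [← hρj, hι _ hjmem, hρ₂x]

end Fermat.Agent.S48WG23
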