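/-
S48 wall (W), block G, part G-23, seat FRICKE (helper93): the leaf `FrickeBaseStatement r` of
`P23/Final.lean` (helper94), UNCONDITIONAL, from `exists_baseEmb_fricke` (`FrickeRed.lean`).
-/
import Mathlib
import Fermat.Agent.S48.W.G.P23.FrickeRed
import Fermat.Agent.S48.W.G.P23.Final

set_option autoImplicit false
set_option linter.unusedVariables false
set_option linter.unusedSectionVars false
set_option linter.style.haveILetI false
set_option synthInstance.maxHeartbeats 400000
set_option maxHeartbeats 1000000

noncomputable section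

namespace Fermat.Agent.S48WG23

open ModularCurve AlgebraicCurve IntermediateField Fermat.Agent.GaussInt Fermat.Agent.S48WG
  Fermat.Agent.S48W

local notation "Kb" => AlgebraicClosure ℚ

/-- **(FRICKE)**, unconditional. -/
theorem frickeBaseStatement (r : ℕ) [NeZero r] : FrickeBaseStatement r := by
  intro M hM hrM ℓ hℓ hℓM A hA x hx hxe hbase
  obtain ⟨s, rfl⟩ := hrM
  haveI : NeZero s := ⟨fun h0 => by
    have := NeZero.ne (r * s)
    rw [h0, Nat.mul_zero] at this
    exact this rfl⟩
  have hℓr : ¬ ℓ ∣ r := fun h => hℓM (Dvd.dvd.mul_right h s)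
  subst hxe
  exact exists_baseEmb_fricke hℓ hA r s hℓr hx hbase.2.2.1

end Fermat.Agent.S48WG23
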