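/-
S48 wall (W), block G, part G-23, seat MONO (helper93): the degeneracy map `q ↦ q^r` from level
`Γ₁(M)` to level `Γ₁(r M)` is FORMAL on the generators of `FOne`:

* `mono_wpCoeff`      : `wpCoeff (r M) (r a) n = [r ∣ n] wpCoeff M a (n / r)`;
* `mono_qExpand_fricke` : `(fricke M a)(q^r) = fricke (r M) (r a)`;
* `mono_qExpand_mem`  : `y ∈ FOne M → y(q^r) ∈ FOne (r M)`;
* `monoBeta`          : the embedding `ℚ̄ F₁(M) → ℚ̄ F₁(r M)`, `q ↦ q^r` (`qSeriesBeta`).
-/
import Mathlib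
import Fermat.Agent.S48.W.Hecke

set_option autoImplicit false

noncomputable section

namespace Fermat.Agent.S48W

open ModularCurve PowerSeries HahnSeries IntermediateField

/-- the class of `r a` modulo `r M`. -/
def monoIdx (M r : ℕ) (a : ZMod M) : ZMod (r * M) := ((r * a.val : ℕ) : ZMod (r * M))

theorem mono_natCast_eq_iff (M r : ℕ) [NeZero M] [NeZero r] (a : ZMod M) (d : ℕ) :
    ((r * d : ℕ) : ZMod (r * M)) = monoIdx M r a ↔ ((d : ℕ) : ZMod M) = a := by
  have hr : 0 < r := Nat.pos_of_ne_zero (NeZero.ne r)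
  unfold monoIdx
  rw [ZMod.natCast_eq_natCast_iff]
  constructor
  · intro h
    have h2 : d ≡ a.val [MOD M] := Nat.ModEq.mul_left_cancel' (NeZero.ne r) h
    have h3 := (ZMod.natCast_eq_natCast_iff d a.val M).mpr h2
    rw [ZMod.natCast_zmod_val] at h3
    exact h3
  · intro h
    have h2 : d ≡ a.val [MOD M] := by
      rw [← ZMod.natCast_eq_natCast_iff, ZMod.natCast_zmod_val]
      exact h
    exact Nat.ModEq.mul_left' r h2

theorem mono_natCast_eq_neg_iff (M r : ℕ) [NeZero M] [NeZero r] (a : ZMod M) (d : ℕ) :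
    ((r * d : ℕ) : ZMod (r * M)) = -monoIdx M r a ↔ ((d : ℕ) : ZMod M) = -a := by
  have hneg : -monoIdx M r a = monoIdx M r (-a) := by
    unfold monoIdx
    have hM : 0 < M := Nat.pos_of_ne_zero (NeZero.ne M)
    by_cases ha : a = 0
    · subst ha
      simp
    · rw [ZMod.neg_val, if_neg ha]
      have hlt : a.val ≤ M := (ZMod.val_lt a).le
      rw [Nat.mul_sub, Nat.cast_sub (Nat.mul_le_mul_left r hlt)]
      simp
  rw [hneg]
  exact mono_natCast_eq_iff M r (-a) d

theorem mono_dvd_of_natCast_eq (M r : ℕ) [NeZero M] [NeZero r] (a : ZMod M) (d : ℕ)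
    (h : ((d : ℕ) : ZMod (r * M)) = monoIdx M r a) : r ∣ d := by
  unfold monoIdx at h
  rw [ZMod.natCast_eq_natCast_iff] at h
  have h2 : d ≡ r * a.val [MOD r] := h.of_mul_right M
  have h3 : r * a.val ≡ 0 [MOD r] := (Nat.modEq_zero_iff_dvd).mpr (dvd_mul_right r _)
  exact (Nat.modEq_zero_iff_dvd).mp (h2.trans h3)

theorem mono_dvd_of_natCast_eq_neg (M r : ℕ) [NeZero M] [NeZero r] (a : ZMod M) (d : ℕ)
    (h : ((d : ℕ) : ZMod (r * M)) = -monoIdx M r a) : r ∣ d := by
  have hneg : -monoIdx M r a = monoIdx M r (-a) := by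
    unfold monoIdx
    by_cases ha : a = 0
    · subst ha
      simp
    · rw [ZMod.neg_val, if_neg ha]
      have hlt : a.val ≤ M := (ZMod.val_lt a).le
      rw [Nat.mul_sub, Nat.cast_sub (Nat.mul_le_mul_left r hlt)]
      simp
  rw [hneg] at h
  exact mono_dvd_of_natCast_eq M r (-a) d h

/-- the divisor sum of `wpCoeff`. -/
def wpSum (M : ℕ) (a : ZMod M) (n : ℕ) : ℤ :=
  ∑ d ∈ n.divisors,
    ((if ((d : ℕ) : ZMod M) = a then ((n / d : ℕ) : ℤ) else 0)
      + (if ((d : ℕ) : ZMod M) = -a then ((n / d : ℕ) : ℤ) else 0))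

theorem wpCoeff_eq (M : ℕ) (a : ZMod M) (n : ℕ) :
    wpCoeff M a n = (if n = 0 then 1 else 0)
      - 24 * (if n ≠ 0 ∧ M ∣ n then ∑ d ∈ (n / M).divisors, (d : ℤ) else 0)
      + 12 * wpSum M a n := rfl

theorem mono_wpSum_of_not_dvd (M r : ℕ) [NeZero M] [NeZero r] (a : ZMod M) (n : ℕ)
    (hn : ¬ r ∣ n) : wpSum (r * M) (monoIdx M r a) n = 0 := by
  unfold wpSum
  refine Finset.sum_eq_zero fun d hd => ?_
  have hdn : d ∣ n := Nat.dvd_of_mem_divisors hd
  rw [if_neg, if_neg, add_zero]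
  · intro h
    exact hn ((mono_dvd_of_natCast_eq_neg M r a d h).trans hdn)
  · intro h
    exact hn ((mono_dvd_of_natCast_eq M r a d h).trans hdn)

theorem mono_wpSum_mul (M r : ℕ) [NeZero M] [NeZero r] (a : ZMod M) (n : ℕ) :
    wpSum (r * M) (monoIdx M r a) (r * n) = wpSum M a n := by
  have hr : 0 < r := Nat.pos_of_ne_zero (NeZero.ne r)
  rcases Nat.eq_zero_or_pos n with rfl | hn
  · simp [wpSum]
  unfold wpSum
  -- restrict to the divisors divisible by `r`
  rw [← Finset.sum_filter_add_sum_filter_not (r * n).divisors (fun d => r ∣ d)]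
  have h2 : ∑ d ∈ (r * n).divisors with ¬ r ∣ d,
      ((if ((d : ℕ) : ZMod (r * M)) = monoIdx M r a then (((r * n) / d : ℕ) : ℤ) else 0)
        + (if ((d : ℕ) : ZMod (r * M)) = -monoIdx M r a then (((r * n) / d : ℕ) : ℤ) else 0))
      = 0 := by
    refine Finset.sum_eq_zero fun d hd => ?_
    have hrd : ¬ r ∣ d := (Finset.mem_filter.mp hd).2
    rw [if_neg, if_neg, add_zero]
    · intro h
      exact hrd (mono_dvd_of_natCast_eq_neg M r a d h)
    · intro h
      exact hrd (mono_dvd_of_natCast_eq M r a d h)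
  rw [h2, add_zero]
  -- the divisors divisible by `r` are `r d'`, `d' ∣ n`
  have himg : ((r * n).divisors.filter fun d => r ∣ d) = n.divisors.image (fun d => r * d) := by
    ext d
    simp only [Finset.mem_filter, Nat.mem_divisors, Finset.mem_image]
    constructor
    · rintro ⟨⟨hd, -⟩, ⟨e, rfl⟩⟩
      exact ⟨e, ⟨(Nat.mul_dvd_mul_iff_left hr).mp hd, hn.ne'⟩, rfl⟩
    · rintro ⟨e, ⟨he, -⟩, rfl⟩
      exact ⟨⟨Nat.mul_dvd_mul_left r he, (Nat.mul_pos hr hn).ne'⟩, dvd_mul_right r e⟩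
  rw [himg, Finset.sum_image (fun x _ y _ h => Nat.eq_of_mul_eq_mul_left hr h)]
  refine Finset.sum_congr rfl fun d hd => ?_
  have hd0 : 0 < d := Nat.pos_of_mem_divisors hd
  have hdiv : r * n / (r * d) = n / d := Nat.mul_div_mul_left n d hr
  rw [hdiv]
  congr 1
  · by_cases h : ((d : ℕ) : ZMod M) = a
    · rw [if_pos h, if_pos ((mono_natCast_eq_iff M r a d).mpr h)]
    · rw [if_neg h, if_neg (fun h' => h ((mono_natCast_eq_iff M r a d).mp h'))]
  · by_cases h : ((d : ℕ) : ZMod M) = -a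
    · rw [if_pos h, if_pos ((mono_natCast_eq_neg_iff M r a d).mpr h)]
    · rw [if_neg h, if_neg (fun h' => h ((mono_natCast_eq_neg_iff M r a d).mp h'))]

/-- **the coefficients at level `r M`**: `wpCoeff (r M) (r a) n = [r ∣ n] wpCoeff M a (n / r)`. -/
theorem mono_wpCoeff (M r : ℕ) [NeZero M] [NeZero r] (a : ZMod M) (n : ℕ) :
    wpCoeff (r * M) (monoIdx M r a) n = if r ∣ n then wpCoeff M a (n / r) else 0 := by
  have hr : 0 < r := Nat.pos_of_ne_zero (NeZero.ne r)
  by_cases hrn : r ∣ n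
  · obtain ⟨m, rfl⟩ := hrn
    rw [if_pos (dvd_mul_right r m), Nat.mul_div_cancel_left m hr, wpCoeff_eq, wpCoeff_eq,
      mono_wpSum_mul]
    have h1 : (r * m = 0) ↔ (m = 0) := by
      constructor
      · intro h
        rcases Nat.mul_eq_zero.mp h with h | h
        · exact absurd h hr.ne'
        · exact h
      · rintro rfl
        simp
    have h2 : (r * M ∣ r * m) ↔ (M ∣ m) := Nat.mul_dvd_mul_iff_left hr
    have h3 : r * m / (r * M) = m / M :=
      Nat.mul_div_mul_left m M hr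
    simp only [h1, h2, h3, ne_eq]
  · rw [if_neg hrn, wpCoeff_eq, mono_wpSum_of_not_dvd M r a n hrn]
    have h1 : n ≠ 0 := by
      rintro rfl
      exact hrn (dvd_zero r)
    have h2 : ¬ (r * M ∣ n) := fun h => hrn ((dvd_mul_right r M).trans h)
    simp [h1, h2]

end Fermat.Agent.S48W

namespace Fermat.Agent.S48W

open ModularCurve PowerSeries HahnSeries IntermediateField

/-- `wp_{M,a}` as a Laurent series over `ℚ`. -/
def wpLaurent (M : ℕ) (a : ZMod M) : LaurentSeries ℚ :=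
  HahnSeries.ofPowerSeries ℤ ℚ ((wpSeries M a).map (Int.castRingHom ℚ))

theorem wpLaurent_coeff (M : ℕ) (a : ZMod M) (k : ℤ) :
    (wpLaurent M a).coeff k = if k < 0 then 0 else ((wpCoeff M a k.natAbs : ℤ) : ℚ) := by
  unfold wpLaurent
  have h := PowerSeries.coeff_coe (R := ℚ) ((wpSeries M a).map (Int.castRingHom ℚ)) k
  rw [show (HahnSeries.ofPowerSeries ℤ ℚ ((wpSeries M a).map (Int.castRingHom ℚ)))
      = (((wpSeries M a).map (Int.castRingHom ℚ) : PowerSeries ℚ) : LaurentSeries ℚ) from rfl, h]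
  split_ifs with hk
  · rfl
  · rw [PowerSeries.coeff_map, wpSeries, PowerSeries.coeff_mk]
    rfl

theorem fricke_eq (M : ℕ) [NeZero M] (a : ZMod M) :
    fricke M a = qExpand ℚ M eisQuot * wpLaurent M a := rfl

/-- `wp_{M,a}(q^r) = wp_{rM, ra}(q)`. -/
theorem mono_qExpand_wp (M r : ℕ) [NeZero M] [NeZero r] (a : ZMod M) :
    qExpand ℚ r (wpLaurent M a) = wpLaurent (r * M) (monoIdx M r a) := by
  have hr : 0 < r := Nat.pos_of_ne_zero (NeZero.ne r)
  ext k
  rw [wpLaurent_coeff]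
  by_cases hk : (r : ℤ) ∣ k
  · obtain ⟨m, rfl⟩ := hk
    rw [qExpand_coeff_mul, wpLaurent_coeff]
    have hr' : (0 : ℤ) < r := by exact_mod_cast hr
    have hneg : ((r : ℤ) * m < 0) ↔ (m < 0) := by
      constructor
      · intro h
        by_contra h'
        push_neg at h'
        have := mul_nonneg hr'.le h'
        omega
      · intro h
        exact mul_neg_of_pos_of_neg hr' h
    by_cases hm : m < 0
    · rw [if_pos hm, if_pos (hneg.mpr hm)]
    · rw [if_neg hm, if_neg (fun h => hm (hneg.mp h))]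
      have habs : ((r : ℤ) * m).natAbs = r * m.natAbs := by
        rw [Int.natAbs_mul, Int.natAbs_natCast]
      rw [habs, mono_wpCoeff, if_pos (dvd_mul_right r _), Nat.mul_div_cancel_left _ hr]
  · rw [qExpand_coeff_of_not_dvd r _ hk]
    split_ifs with hk0
    · rfl
    · have hnd : ¬ r ∣ k.natAbs := by
        intro h
        exact hk (Int.natCast_dvd.mpr h)
      rw [mono_wpCoeff, if_neg hnd]
      simp

/-- **`(fricke M a)(q^r) = fricke (r M) (r a)`**. -/
theorem mono_qExpand_fricke (M r : ℕ) [NeZero M] [NeZero r] (a : ZMod M) :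
    haveI : NeZero (r * M) := ⟨mul_ne_zero (NeZero.ne r) (NeZero.ne M)⟩
    qExpand ℚ r (fricke M a) = fricke (r * M) (monoIdx M r a) := by
  haveI : NeZero (r * M) := ⟨mul_ne_zero (NeZero.ne r) (NeZero.ne M)⟩
  rw [fricke_eq, fricke_eq, map_mul, mono_qExpand_wp, qExpand_qExpand]

theorem monoIdx_ne_zero (M r : ℕ) [NeZero M] [NeZero r] {a : ZMod M} (ha : a ≠ 0) :
    monoIdx M r a ≠ 0 := by
  intro h
  apply ha
  have h0 : ((r * 0 : ℕ) : ZMod (r * M)) = monoIdx M r a := by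
    rw [h]
    simp
  have := (mono_natCast_eq_iff M r a 0).mp h0
  rw [← this]
  simp

/-- **`y ∈ F₁(M) ⟹ y(q^r) ∈ F₁(r M)`**. -/
theorem mono_qExpand_mem (M r : ℕ) [NeZero M] [NeZero r] :
    haveI : NeZero (r * M) := ⟨mul_ne_zero (NeZero.ne r) (NeZero.ne M)⟩
    ∀ y ∈ FOne M, qExpand ℚ r y ∈ FOne (r * M) := by
  haveI : NeZero (r * M) := ⟨mul_ne_zero (NeZero.ne r) (NeZero.ne M)⟩
  have hle : FOne M ≤ (FOne (r * M)).comap (qExpandₐ r) := by
    unfold FOne
    rw [IntermediateField.adjoin_le_iff]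
    rintro x (hx | ⟨a, ha, rfl⟩)
    · obtain ⟨d, hd, hdM, rfl⟩ := hx
      show qExpand ℚ r (qExpand ℚ d jq) ∈ IntermediateField.adjoin ℚ (genOne (r * M))
      rw [qExpand_qExpand]
      haveI : NeZero (r * d) := ⟨mul_ne_zero (NeZero.ne r) (NeZero.ne d)⟩
      exact IntermediateField.subset_adjoin ℚ _
        (Or.inl (mem_divisorExpansions (r * M) (Nat.mul_dvd_mul_left r hdM)))
    · show qExpand ℚ r (fricke M a) ∈ IntermediateField.adjoin ℚ (genOne (r * M))
      rw [mono_qExpand_fricke]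
      exact IntermediateField.subset_adjoin ℚ _
        (Or.inr ⟨monoIdx M r a, monoIdx_ne_zero M r ha, rfl⟩)
  intro y hy
  exact hle hy

/-- **the degeneracy map** `ℚ̄ F₁(M) → ℚ̄ F₁(r M)`, `q ↦ q^r`. -/
def monoBeta (M r : ℕ) [NeZero M] [NeZero r] :
    haveI : NeZero (r * M) := ⟨mul_ne_zero (NeZero.ne r) (NeZero.ne M)⟩
    FOneBar M →ₐ[AlgebraicClosure ℚ] FOneBar (r * M) :=
  haveI : NeZero (r * M) := ⟨mul_ne_zero (NeZero.ne r) (NeZero.ne M)⟩
  qSeriesBeta (AlgebraicClosure ℚ) r (mono_qExpand_mem M r)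

theorem coe_monoBeta (M r : ℕ) [NeZero M] [NeZero r] (x : FOneBar M) :
    haveI : NeZero (r * M) := ⟨mul_ne_zero (NeZero.ne r) (NeZero.ne M)⟩
    ((monoBeta M r x : FOneBar (r * M)) : LaurentSeries (AlgebraicClosure ℚ))
      = qExpand (AlgebraicClosure ℚ) r (x : LaurentSeries (AlgebraicClosure ℚ)) :=
  rfl

end Fermat.Agent.S48W
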