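/-
S48 wall (W), block G, part G-23 (good reduction at `p = 2, 3`), seat NORM (helper94).

NORM TRANSFER of the KEY LEMMA, generic in the fields of `q`-series `F₀ ≤ F₁`:
if `[ℚ̄ F₁ : ℚ̄ F₀] = d` is finite and prime to `n`, the KEY LEMMA for `F₁` at the exponent `n`
gives the KEY LEMMA for `F₀` at the exponent `n`.

  `g ∈ F₀`, `n ∣ div g`, `g ≡ 1`  ⟹  `g = h' ^ n` in `F₁`  ⟹  `g = (g ^ a · N(h') ^ b) ^ n`,
  `a n + b d = 1`.

* `exists_pow_eq_of_pow_eq_map` : the algebra (any finite extension of fields);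
* `KeyLemmaGenAt F₀ A n`        : the KEY LEMMA at one exponent;
* `keyLemmaGenAt_of_le`         : the transfer.
-/
import Mathlib
import Fermat.Agent.S48.W.G.Port.Defs

set_option autoImplicit false
set_option linter.style.haveILetI false
set_option linter.unusedSectionVars false

noncomputable section

namespace Fermat.Agent.S48WG23

open ModularCurve AlgebraicCurve Fermat.Agent.GaussInt Fermat.Agent.S48W Fermat.Agent.S48WPort

local notation "Kb" => AlgebraicClosure ℚ

section Algebra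

variable {K F F' : Type*} [Field K] [Field F] [Field F'] [Algebra K F] [Algebra K F']

/-- **norm descent of `n`-th roots**: `φ : F → F'` finite of degree prime to `n`; an element of
`F` which is an `n`-th power in `F'` is an `n`-th power in `F`. -/
theorem exists_pow_eq_of_pow_eq_map (φ : F →ₐ[K] F') (hfin : FiniteAlong K φ) {n : ℕ}
    (hcop : Nat.Coprime n (finrankAlong K φ)) {g : F} (hg : g ≠ 0) {h' : F'}
    (hh : h' ^ n = φ g) : ∃ h : F, h ^ n = g := by
  letI := algebraAlong φ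
  haveI : Module.Finite F F' := hfin
  set d : ℕ := Module.finrank F F' with hd
  have hcop' : Nat.Coprime n d := hcop
  -- the norm of `h'`
  have hN : (Algebra.norm F h') ^ n = g ^ d := by
    have e1 : φ g = algebraMap F F' g := rfl
    rw [← map_pow, hh, e1, Algebra.norm_algebraMap]
  -- Bezout
  have hb : ((n : ℤ) * Int.gcdA n d + (d : ℤ) * Int.gcdB n d) = 1 := by
    have := Int.gcd_eq_gcd_ab (n : ℤ) (d : ℤ)
    rw [← this]
    have h1 : Int.gcd (n : ℤ) (d : ℤ) = 1 := by
      rw [Int.gcd_natCast_natCast]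
      exact hcop'
    rw [h1]
    rfl
  set a : ℤ := Int.gcdA n d with ha
  set b : ℤ := Int.gcdB n d with hbdef
  refine ⟨g ^ a * (Algebra.norm F h') ^ b, ?_⟩
  have e2 : ((Algebra.norm F h') ^ b) ^ n = g ^ ((d : ℤ) * b) := by
    rw [← zpow_natCast ((Algebra.norm F h') ^ b) n, ← zpow_mul, mul_comm, zpow_mul,
      zpow_natCast, hN, ← zpow_natCast g d, ← zpow_mul]
  have e3 : (g ^ a) ^ n = g ^ ((n : ℤ) * a) := by
    rw [← zpow_natCast (g ^ a) n, ← zpow_mul, mul_comm]
  rw [mul_pow, e2, e3, ← zpow_add₀ hg, hb, zpow_one]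

end Algebra

section Gauss

variable {K : Type*} [Field K] {A : ValuationSubring K}

theorem isPres_mono {F F' : IntermediateField K (LaurentSeries K)} (h : F ≤ F')
    {f : LaurentSeries K} {Y₁ Y₂ : LaurentSeries A} (hp : IsPres A F f Y₁ Y₂) :
    IsPres A F' f Y₁ Y₂ :=
  ⟨h hp.mem₁, h hp.mem₂, hp.prim, hp.eq⟩

/-- the Gauss ring is monotone in the field. -/
theorem gaussSub_mono' {F F' : IntermediateField K (LaurentSeries K)} (h : F ≤ F') :
    gaussSub A F ≤ gaussSub A F' := by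
  rintro f ⟨Y₁, Y₂, hp⟩
  exact ⟨Y₁, Y₂, isPres_mono h hp⟩

/-- the residue map does not depend on the field. -/
theorem gaussResFun_mono' {F F' : IntermediateField K (LaurentSeries K)} (h : F ≤ F')
    {f : LaurentSeries K} (hf : f ∈ gaussSub A F) : gaussResFun A F' f = gaussResFun A F f := by
  obtain ⟨Y₁, Y₂, hp⟩ := hf
  rw [gaussResFun_eq hp, gaussResFun_eq (isPres_mono h hp)]

end Gauss

section Transfer

/-- the KEY LEMMA for `F = ℚ̄ F₀` at the place `A`, at ONE exponent `n`. -/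
def KeyLemmaGenAt (F₀ : IntermediateField ℚ (LaurentSeries ℚ)) (A : ValuationSubring Kb)
    (n : ℕ) : Prop :=
  ∀ g : laurentBaseChange Kb F₀, g ≠ 0 →
    (∀ P : Place Kb (laurentBaseChange Kb F₀), (n : ℤ) ∣ P.ord g) →
    (g : LaurentSeries Kb) ∈ gaussSub A (laurentBaseChange Kb F₀) →
    gaussResFun A (laurentBaseChange Kb F₀) (g : LaurentSeries Kb) = 1 →
    ∃ h : laurentBaseChange Kb F₀, h ^ n = g

theorem keyLemmaGenAt_of_keyLemmaGen {F₀ : IntermediateField ℚ (LaurentSeries ℚ)} {p : ℕ}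
    {A : ValuationSubring Kb} (h : KeyLemmaGen F₀ p A) {n : ℕ} (hpn : ¬ p ∣ n) :
    KeyLemmaGenAt F₀ A n :=
  h n hpn

theorem keyLemmaGen_of_forall_at {F₀ : IntermediateField ℚ (LaurentSeries ℚ)} {p : ℕ}
    {A : ValuationSubring Kb} (h : ∀ n : ℕ, ¬ p ∣ n → KeyLemmaGenAt F₀ A n) :
    KeyLemmaGen F₀ p A :=
  fun n hpn => h n hpn

variable {F₀ F₁ : IntermediateField ℚ (LaurentSeries ℚ)}

/-- **NORM TRANSFER**: the KEY LEMMA at the exponent `n` descends along a finite extension
`ℚ̄ F₀ ⊆ ℚ̄ F₁` of degree prime to `n`. -/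
theorem keyLemmaGenAt_of_le (h : F₀ ≤ F₁) (A : ValuationSubring Kb) (n : ℕ)
    (hfin : FiniteAlong Kb (qSeriesAlpha Kb h))
    (hcop : Nat.Coprime n (finrankAlong Kb (qSeriesAlpha Kb h)))
    (hK : KeyLemmaGenAt F₁ A n) : KeyLemmaGenAt F₀ A n := by
  intro g hg hdiv hmem hres
  set φ := qSeriesAlpha Kb h with hφdef
  have hφint : φ.toRingHom.IsIntegral := by
    letI := algebraAlong φ
    haveI : Module.Finite (laurentBaseChange Kb F₀) (laurentBaseChange Kb F₁) := hfin
    intro x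
    exact Algebra.IsIntegral.isIntegral (R := laurentBaseChange Kb F₀) x
  have hφg : φ g ≠ 0 := (map_ne_zero_iff _ φ.toRingHom.injective).mpr hg
  have hcoe : ((φ g : laurentBaseChange Kb F₁) : LaurentSeries Kb) = (g : LaurentSeries Kb) :=
    coe_qSeriesAlpha Kb h g
  have hle : laurentBaseChange Kb F₀ ≤ laurentBaseChange Kb F₁ := laurentBaseChange_mono_w Kb h
  obtain ⟨h', hh'⟩ := hK (φ g) hφg
    (fun P => by
      rw [Place.ord_restrictAlong φ hφint P g]
      exact Dvd.dvd.mul_left (hdiv _) _)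
    (by rw [hcoe]; exact gaussSub_mono' hle hmem)
    (by rw [hcoe, gaussResFun_mono' hle hmem]; exact hres)
  exact exists_pow_eq_of_pow_eq_map φ hfin hcop hg hh'

end Transfer

end Fermat.Agent.S48WG23
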