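/-
S48 wall (W), block G: `GoodRedOne M` at the levels of the gluing (`4 ∣ M` or `9 ∣ M`), from
the Fricke base alone (helper94).

All the other leaves are on main: G-IGUSA (`igusaOne`), G-BRANCH (`branchOne`),
ELL (`ellOne`), G-RED at `p ≥ 5` (`goodRedOneFive`).
-/
import Mathlib
import Fermat.Agent.S48.W.G.P23.Final
import Fermat.Agent.S48.W.G.Red.Igusa.Final
import Fermat.Agent.S48.W.G.Red.Branch.EllOne

set_option autoImplicit false
set_option synthInstance.maxHeartbeats 400000
set_option maxHeartbeats 1000000

noncomputable section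

namespace Fermat.Agent.S48WG23

open Fermat.Agent.S48WG

/-- ELL in the form consumed by `goodRedOne_of_leaves`. -/
theorem ellOne23 : Fermat.Agent.S48WG23.EllOneStatement := Fermat.Agent.S48WG.ellOne

/-- **block G at the levels of the gluing**, from the Fricke base at `r = 4` and `r = 9`. -/
theorem goodRedOne_of_fricke (hFr4 : FrickeBaseStatement 4) (hFr9 : FrickeBaseStatement 9)
    (M : ℕ) [NeZero M] (h49 : 4 ∣ M ∨ 9 ∣ M) : GoodRedOne M :=
  goodRedOne_of_leaves igusaOne branchOne ellOne23 hFr4 hFr9
    (fun M _ hM => goodRedOneFive M hM) M h49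

end Fermat.Agent.S48WG23
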